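import Fermat.Agent.EllLocal.Reduction

/-!
# `E₁` has no torsion prime to the residue characteristic

`eq_zero_of_nsmul_eq_zero`: a point of `E1` killed by an `n` invertible in the residue field is
zero, by scaling to a cuspidal reduction, where multiplication by `n` is computed
(`nsmul_cusp`). Hence `eq_of_same_reduction`: such torsion points with the same nonsingular
reduction coincide.
-/

set_option autoImplicit false

namespace FLTAgent.EllLocal

open WeierstrassCurve WeierstrassCurve.Affine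

variable {K : Type*} [Field K] [DecidableEq K] {A : ValuationSubring K}
  {W₀ : WeierstrassCurve A}

local notation "π" => IsLocalRing.residue A

theorem nsmul_cusp_step {k : Type*} [Field k] [DecidableEq k] (W : Affine k) (h₁ : W.a₁ = 0)
    (h₂ : W.a₂ = 0) (h₃ : W.a₃ = 0) (h₄ : W.a₄ = 0) {n : k} (hn : n ≠ 0) (hn1 : n + 1 ≠ 0) :
    W.addX 1 (1 / n ^ 2) (W.slope 1 (1 / n ^ 2) 1 (1 / n ^ 3)) = 1 / (n + 1) ^ 2 ∧
      W.addY 1 (1 / n ^ 2) 1 (W.slope 1 (1 / n ^ 2) 1 (1 / n ^ 3)) = 1 / (n + 1) ^ 3 := by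
  by_cases hx : (1 : k) = 1 / n ^ 2
  · have hn2 : n ^ 2 = 1 := by field_simp at hx; linear_combination hx
    have hone : n = 1 := by
      have : (n - 1) * (n + 1) = 0 := by linear_combination hn2
      rcases mul_eq_zero.mp this with h | h
      · linear_combination h
      · exact (hn1 h).elim
    subst hone
    have h2 : (2 : k) ≠ 0 := by rwa [one_add_one_eq_two] at hn1
    have hy : (1 : k) ≠ W.negY (1 / 1 ^ 2) (1 / 1 ^ 3) := by
      intro hc
      simp only [negY, h₁, h₃, one_pow, div_one] at hc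
      exact h2 (by linear_combination hc)
    rw [slope_of_Y_ne hx hy]
    simp only [addX, addY, negAddY, negY, h₁, h₂, h₃, h₄, one_pow, div_one, mul_one, zero_mul,
      mul_zero, add_zero, sub_zero, one_add_one_eq_two, sub_neg_eq_add]
    constructor <;> field_simp <;> ring
  · have hd : n ^ 2 - 1 ≠ 0 := fun h => hx (by field_simp; linear_combination h)
    have hd' : (1 : k) - 1 / n ^ 2 ≠ 0 := sub_ne_zero.mpr hx
    have hl : W.slope 1 (1 / n ^ 2) 1 (1 / n ^ 3) = (n ^ 2 + n + 1) / (n * (n + 1)) := by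
      rw [slope_of_X_ne hx, div_eq_div_iff hd' (mul_ne_zero hn hn1)]
      field_simp
      ring
    rw [hl]
    simp only [addX, addY, negAddY, negY, h₁, h₂, h₃, zero_mul, add_zero, sub_zero]
    constructor <;> field_simp <;> ring

/-- On a model reducing to the cusp `y² = x³`, multiples of a point over `(1, 1)`. -/
theorem nsmul_cusp (h₁ : π W₀.a₁ = 0) (h₂ : π W₀.a₂ = 0) (h₃ : π W₀.a₃ = 0) (h₄ : π W₀.a₄ = 0)
    {R : (genCurve A W₀).Point} {a b : A} (hR : IsLift R a b) (ha : π a = 1) (hb : π b = 1)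
    (n : ℕ) :
    ((n : IsLocalRing.ResidueField A) ≠ 0 ∧ ∃ a' b', IsLift (n • R) a' b' ∧
        π a' = 1 / (n : IsLocalRing.ResidueField A) ^ 2 ∧
        π b' = 1 / (n : IsLocalRing.ResidueField A) ^ 3) ∨
      ((n : IsLocalRing.ResidueField A) = 0 ∧ InE1 (n • R)) := by
  classical
  induction n with
  | zero => exact Or.inr ⟨Nat.cast_zero, by rw [zero_smul]; exact trivial⟩
  | succ n ih =>
    rw [succ_nsmul', Nat.cast_succ]
    rcases ih with ⟨hn, a', b', hl, ha', hb'⟩ | ⟨hn, hl⟩
    · by_cases hn1 : (n : IsLocalRing.ResidueField A) + 1 = 0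
      · refine Or.inr ⟨hn1, add_inE1 hR hl ?_ ?_ ?_⟩
        · refine ⟨hR.redEquation, ?_⟩
          rw [evalEval_polynomialX, evalEval_polynomialY]
          simp only [map_a₁, map_a₂, map_a₃, map_a₄, h₁, h₂, h₃, h₄, ha, hb,
            mul_zero, add_zero, one_pow, mul_one, zero_sub, ne_eq, neg_eq_zero]
          by_contra hc
          simp only [not_or, not_not] at hc
          exact one_ne_zero (α := IsLocalRing.ResidueField A) (by linear_combination hc.1 - hc.2)
        · rw [ha, ha', eq_neg_of_add_eq_zero_left hn1]; norm_num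
        · rw [hb, hb', eq_neg_of_add_eq_zero_left hn1]
          simp only [negY, map_a₁, map_a₃, h₁, h₃, zero_mul, sub_zero]
          norm_num
      · have hne : ¬(π a = π a' ∧ π b = (redCurve A W₀).negY (π a') (π b')) := by
          rintro ⟨hx, hy⟩
          rw [ha, ha'] at hx
          simp only [hb, hb', negY, map_a₁, map_a₃, h₁, h₃, zero_mul, sub_zero] at hy
          field_simp at hx hy
          refine hn1 ?_
          have h4 : ((n : IsLocalRing.ResidueField A)) * 1 = -1 := by
            linear_combination hy - (n : IsLocalRing.ResidueField A) * hx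
          linear_combination h4
        obtain ⟨a₃, b₃, hl₃, hx₃, hy₃⟩ := add_lift hR hl hne
        obtain ⟨hX, hY⟩ := nsmul_cusp_step (redCurve A W₀) h₁ h₂ h₃ h₄ hn hn1
        refine Or.inl ⟨hn1, a₃, b₃, hl₃, ?_, ?_⟩
        · rw [hx₃, ha, hb, ha', hb']; exact hX
        · rw [hy₃, ha, hb, ha', hb']; exact hY
    · obtain ⟨a', b', h', ha', hb'⟩ := lift_add_inE1 hR hl
      refine Or.inl ⟨by rw [hn, zero_add]; exact one_ne_zero, a', b', h', ?_, ?_⟩
      · rw [ha', ha, hn]; norm_num
      · rw [hb', hb, hn]; norm_num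

theorem nsmul_cusp_ne_zero {W : Affine K} (hW : W = genCurve A W₀) (h₁ : π W₀.a₁ = 0)
    (h₂ : π W₀.a₂ = 0) (h₃ : π W₀.a₃ = 0) (h₄ : π W₀.a₄ = 0) {a b : A}
    (h : W.Nonsingular (a : K) (b : K)) (ha : π a = 1) (hb : π b = 1) {n : ℕ}
    (hn : (n : IsLocalRing.ResidueField A) ≠ 0) :
    n • (Point.some (a : K) (b : K) h) ≠ 0 := by
  subst hW
  rcases nsmul_cusp h₁ h₂ h₃ h₄ ⟨h, rfl⟩ ha hb n with ⟨-, a', b', hl, -, -⟩ | ⟨h0, -⟩
  · intro h0
    exact hl.not_inE1 (h0 ▸ trivial)
  · exact absurd h0 hn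

/-- `E₁` has no torsion prime to the residue characteristic. -/
theorem eq_zero_of_nsmul_eq_zero {P : (genCurve A W₀).Point} (hP : P ∈ E1 A W₀) {n : ℕ}
    (hn : (n : IsLocalRing.ResidueField A) ≠ 0) (h0 : n • P = 0) : P = 0 := by
  cases P with
  | zero => rfl
  | some x y hxy =>
  exfalso
  have hx : x ∉ A := hP
  obtain ⟨t, u, hπt, hπu, ht0, rfl, rfl, -⟩ := exists_scaling hxy.1 hx
  let C : VariableChange K := ⟨(Units.mk0 (t : K) ht0)⁻¹, 0, 0, 0⟩
  let W₁ : WeierstrassCurve A :=
    ⟨t * W₀.a₁, t ^ 2 * W₀.a₂, t ^ 3 * W₀.a₃, t ^ 4 * W₀.a₄, t ^ 6 * W₀.a₆⟩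
  have hC : C • (genCurve A W₀) = genCurve A W₁ := by
    simp only [C, W₁, variableChange_def, inv_inv, Units.val_mk0]
    ext <;> simp
  have h1 := nonsingular_vc C hxy
  have ex : vcX C ((u : K) / (t : K) ^ 2) = (u : K) := by
    simp only [vcX, C, inv_inv, Units.val_mk0, sub_zero]; field_simp
  have ey : vcY C ((u : K) / (t : K) ^ 2) ((u : K) / (t : K) ^ 3) = (u : K) := by
    simp only [vcY, C, inv_inv, Units.val_mk0, sub_zero, zero_mul]; field_simp
  have h1' : (C • genCurve A W₀).toAffine.Nonsingular (u : K) (u : K) := by rwa [ex, ey] at h1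
  refine nsmul_cusp_ne_zero hC ?_ ?_ ?_ ?_ h1' hπu hπu hn ?_
  iterate 4 simp [W₁, hπt]
  have := congrArg (vcPoint (genCurve A W₀) C) h0
  rw [map_nsmul, map_zero, vcPoint_some] at this
  simp only [ex, ey] at this
  exact this

/-- Torsion points prime to the residue characteristic with the same nonsingular reduction
coincide. -/
theorem eq_of_same_reduction {P Q : (genCurve A W₀).Point} {a b a' b' : A} (hP : IsLift P a b)
    (hQ : IsLift Q a' b') (hns : (redCurve A W₀).Nonsingular (π a) (π b)) (hx : π a = π a')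
    (hy : π b = π b') {n : ℕ} (hn : (n : IsLocalRing.ResidueField A) ≠ 0) (hP0 : n • P = 0)
    (hQ0 : n • Q = 0) : P = Q := by
  have h : InE1 (P + -Q) := by
    refine add_inE1 hP hQ.neg hns hx ?_
    rw [hy, ← redCurve_negY, negY_negY]
  have h2 : P + -Q = 0 :=
    eq_zero_of_nsmul_eq_zero h hn (by rw [nsmul_add, hP0, neg_nsmul, hQ0, neg_zero, add_zero])
  exact add_neg_eq_zero.mp h2

end FLTAgent.EllLocal
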