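import Fermat.Agent.EllLocal.VarChange
import Mathlib.RingTheory.Valuation.ValuationSubring
import Mathlib.RingTheory.LocalRing.ResidueField.Basic

/-!
# Elementary reduction theory over a valuation subring

For a Weierstrass curve `W₀` over a valuation subring `A` of a field: the subgroups `E1` (points
reducing to infinity) and `E0` (points with nonsingular reduction) of the points over the field,
proved closed under addition by direct computation with slopes (`add_lift`, `add_inE1`,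
`lift_add_inE1`), and `mem_E0_of_good` for good reduction.
-/

set_option autoImplicit false

namespace FLTAgent.EllLocal

open WeierstrassCurve WeierstrassCurve.Affine

variable {K : Type*} [Field K]

/-- Slope identity, valid for secants and tangents. -/
theorem slope_mul_sub [DecidableEq K] {W : Affine K} {x₁ x₂ y₁ y₂ : K}
    (h₁ : W.Equation x₁ y₁) (h₂ : W.Equation x₂ y₂)
    (hxy : ¬(x₁ = x₂ ∧ y₁ = W.negY x₂ y₂)) :
    W.slope x₁ x₂ y₁ y₂ * (x₁ - x₂) = y₁ - y₂ := by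
  by_cases hx : x₁ = x₂
  · rw [Y_eq_of_Y_ne h₁ h₂ hx fun h => hxy ⟨hx, h⟩, hx, sub_self, sub_self, mul_zero]
  · rw [slope_of_X_ne hx, div_mul_cancel₀ _ (sub_ne_zero.mpr hx)]

/-- Second slope identity, valid for secants and tangents. -/
theorem slope_mul_add [DecidableEq K] {W : Affine K} {x₁ x₂ y₁ y₂ : K}
    (h₁ : W.Equation x₁ y₁) (h₂ : W.Equation x₂ y₂)
    (hxy : ¬(x₁ = x₂ ∧ y₁ = W.negY x₂ y₂)) :
    W.slope x₁ x₂ y₁ y₂ * (y₁ + y₂ + W.a₁ * x₁ + W.a₃) =
      x₁ ^ 2 + x₁ * x₂ + x₂ ^ 2 + W.a₂ * (x₁ + x₂) + W.a₄ - W.a₁ * y₂ := by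
  by_cases hx : x₁ = x₂
  · have hy : y₁ ≠ W.negY x₂ y₂ := fun h => hxy ⟨hx, h⟩
    obtain rfl := hx
    obtain rfl := Y_eq_of_Y_ne h₁ h₂ rfl hy
    have hd : y₁ - W.negY x₁ y₁ ≠ 0 := sub_ne_zero.mpr hy
    have he : y₁ + y₁ + W.a₁ * x₁ + W.a₃ = y₁ - W.negY x₁ y₁ := by simp only [negY]; ring
    rw [slope_of_Y_ne rfl hy, he, div_mul_cancel₀ _ hd]
    ring
  · refine mul_right_cancel₀ (sub_ne_zero.mpr hx) ?_
    rw [mul_right_comm, slope_mul_sub h₁ h₂ hxy]
    rw [equation_iff] at h₁ h₂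
    linear_combination h₁ - h₂

variable (A : ValuationSubring K)

local notation "π" => IsLocalRing.residue A

theorem isUnit_of_residue_ne_zero {z : A} (h : π z ≠ 0) : IsUnit z :=
  (IsLocalRing.residue_ne_zero_iff_isUnit z).mp h

theorem residue_eq_zero_of_valuation_lt {z : A} (h : A.valuation (z : K) < 1) : π z = 0 :=
  (IsLocalRing.residue_eq_zero_iff z).mpr ((A.valuation_lt_one_iff z).mpr h)

theorem valuation_lt_of_residue_eq_zero {z : A} (h : π z = 0) : A.valuation (z : K) < 1 :=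
  (A.valuation_lt_one_iff z).mp ((IsLocalRing.residue_eq_zero_iff z).mp h)

theorem mem_of_quadratic {l e f : K} (he : e ∈ A) (hf : f ∈ A) (h : l ^ 2 + e * l = f) :
    l ∈ A := by
  rw [← A.valuation_le_one_iff] at he hf ⊢
  by_contra hl
  rw [not_le] at hl
  have h1 : A.valuation (e * l) < A.valuation (l ^ 2) := by
    rw [map_mul, map_pow, pow_two]
    exact lt_of_le_of_lt (mul_le_of_le_one_left' he)
      (lt_mul_of_one_lt_left (zero_lt_one.trans hl) hl)
  rw [← h, Valuation.map_add_eq_of_lt_left _ h1, map_pow] at hf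
  exact absurd hf (not_le.mpr (one_lt_pow₀ hl two_ne_zero))

variable (W₀ : WeierstrassCurve A)

/-- The generic fibre. -/
abbrev genCurve : Affine K := (W₀.map A.subtype).toAffine

/-- The special fibre. -/
noncomputable abbrev redCurve : Affine (IsLocalRing.ResidueField A) :=
  (W₀.map (IsLocalRing.residue A)).toAffine

variable {A W₀}

/-- `P` is a point with coordinates `(a, b)` in the valuation ring. -/
def IsLift (P : (genCurve A W₀).Point) (a b : A) : Prop :=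
  ∃ h, P = Point.some (a : K) (b : K) h

/-- The kernel of reduction. -/
def InE1 : (genCurve A W₀).Point → Prop
  | 0 => True
  | .some x _ _ => x ∉ A

/-- The points with nonsingular reduction. -/
def InE0 (P : (genCurve A W₀).Point) : Prop :=
  InE1 P ∨ ∃ a b, IsLift P a b ∧ (redCurve A W₀).Nonsingular (π a) (π b)

theorem IsLift.equation {P : (genCurve A W₀).Point} {a b : A} (h : IsLift P a b) :
    W₀.toAffine.Equation a b := by
  obtain ⟨h, rfl⟩ := h
  exact ((map_equation W₀ (f := A.subtype) Subtype.val_injective a b).mp h.1)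

theorem IsLift.redEquation {P : (genCurve A W₀).Point} {a b : A} (h : IsLift P a b) :
    (redCurve A W₀).Equation (π a) (π b) :=
  h.equation.map π

theorem IsLift.not_inE1 {P : (genCurve A W₀).Point} {a b : A} (h : IsLift P a b) :
    ¬InE1 P := by
  obtain ⟨h, rfl⟩ := h
  exact fun hc => hc a.2

theorem IsLift.unique {P : (genCurve A W₀).Point} {a b a' b' : A} (h : IsLift P a b)
    (h' : IsLift P a' b') : a = a' ∧ b = b' := by
  obtain ⟨h, rfl⟩ := h
  obtain ⟨_, h'⟩ := h'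
  simp only [Point.some.injEq] at h'
  exact ⟨Subtype.ext h'.1, Subtype.ext h'.2⟩

theorem y_mem_of_x_mem {x y : K} (h : (genCurve A W₀).Equation x y) (hx : x ∈ A) : y ∈ A := by
  rw [equation_iff] at h
  lift x to A using hx
  refine mem_of_quadratic A (e := ((W₀.a₁ * x + W₀.a₃ : A) : K))
    (f := ((x ^ 3 + W₀.a₂ * x ^ 2 + W₀.a₄ * x + W₀.a₆ : A) : K)) (SetLike.coe_mem _)
    (SetLike.coe_mem _) ?_
  simp only [map_a₁, map_a₂, map_a₃, map_a₄, map_a₆, ValuationSubring.subtype_apply] at h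
  push_cast
  linear_combination h

theorem inE1_or_isLift (P : (genCurve A W₀).Point) : InE1 P ∨ ∃ a b, IsLift P a b := by
  cases P with
  | zero => exact Or.inl trivial
  | some x y h =>
    by_cases hx : x ∈ A
    · exact Or.inr ⟨⟨x, hx⟩, ⟨y, y_mem_of_x_mem h.1 hx⟩, h, rfl⟩
    · exact Or.inl hx

theorem InE1.neg {P : (genCurve A W₀).Point} (h : InE1 P) : InE1 (-P) := by
  cases P with
  | zero => exact h
  | some x y hP => exact h

theorem IsLift.neg {P : (genCurve A W₀).Point} {a b : A} (h : IsLift P a b) :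
    IsLift (-P) a (W₀.toAffine.negY a b) := by
  obtain ⟨h, rfl⟩ := h
  rw [Point.neg_some]
  have e : (genCurve A W₀).negY (a : K) (b : K) = ((W₀.toAffine.negY a b : A) : K) :=
    map_negY A.subtype a b
  have h' := (nonsingular_neg _ _).mpr h
  rw [e] at h'
  exact ⟨h', by simp only [e]⟩

theorem redCurve_negY (a b : A) :
    (redCurve A W₀).negY (π a) (π b) = π (W₀.toAffine.negY a b) :=
  map_negY π a b

theorem InE0.neg {P : (genCurve A W₀).Point} (h : InE0 P) : InE0 (-P) := by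
  rcases h with h | ⟨a, b, hl, hn⟩
  · exact Or.inl h.neg
  · exact Or.inr ⟨a, _, hl.neg, redCurve_negY a b ▸ (nonsingular_neg _ _).mpr hn⟩

variable [DecidableEq K]

/-- Addition commutes with reduction unless the reductions are opposite. -/
theorem add_lift [DecidableEq (IsLocalRing.ResidueField A)] {P Q : (genCurve A W₀).Point}
    {a₁ b₁ a₂ b₂ : A} (hP : IsLift P a₁ b₁) (hQ : IsLift Q a₂ b₂)
    (hne : ¬(π a₁ = π a₂ ∧ π b₁ = (redCurve A W₀).negY (π a₂) (π b₂))) :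
    ∃ a₃ b₃, IsLift (P + Q) a₃ b₃ ∧
      π a₃ = (redCurve A W₀).addX (π a₁) (π a₂)
        ((redCurve A W₀).slope (π a₁) (π a₂) (π b₁) (π b₂)) ∧
      π b₃ = (redCurve A W₀).addY (π a₁) (π a₂) (π b₁)
        ((redCurve A W₀).slope (π a₁) (π a₂) (π b₁) (π b₂)) := by
  have e₁ := hP.redEquation
  have e₂ := hQ.redEquation
  obtain ⟨h₁, rfl⟩ := hP
  obtain ⟨h₂, rfl⟩ := hQ
  have hne' : ¬((a₁ : K) = a₂ ∧ (b₁ : K) = (genCurve A W₀).negY a₂ b₂) := by
    rintro ⟨hx, hy⟩
    apply hne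
    rw [show (genCurve A W₀).negY (a₂ : K) b₂ = ((W₀.toAffine.negY a₂ b₂ : A) : K) from
      map_negY A.subtype a₂ b₂] at hy
    exact ⟨congrArg π (Subtype.ext hx), (congrArg π (Subtype.ext hy)).trans
      (redCurve_negY a₂ b₂).symm⟩
  set l := (genCurve A W₀).slope (a₁ : K) a₂ b₁ b₂ with hl_def
  set m := (redCurve A W₀).slope (π a₁) (π a₂) (π b₁) (π b₂) with hm_def
  have s₁ := slope_mul_sub h₁.1 h₂.1 hne'
  have s₂ := slope_mul_add h₁.1 h₂.1 hne'
  have t₁ := slope_mul_sub e₁ e₂ hne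
  have t₂ := slope_mul_add e₁ e₂ hne
  rw [← hl_def] at s₁ s₂
  rw [← hm_def] at t₁ t₂
  simp only [map_a₁, map_a₂, map_a₃, map_a₄, ValuationSubring.subtype_apply] at s₂ t₂
  obtain ⟨L, hL, hπL⟩ : ∃ L : A, (L : K) = l ∧ π L = m := by
    by_cases hx : π a₁ = π a₂
    · have hd : π (b₁ + b₂ + W₀.a₁ * a₁ + W₀.a₃) ≠ 0 := by
        intro h0
        refine hne ⟨hx, ?_⟩
        simp only [map_add, map_mul] at h0
        simp only [negY, map_a₁, map_a₃]
        linear_combination h0 - π W₀.a₁ * hx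
      obtain ⟨d, hd'⟩ := isUnit_of_residue_ne_zero A hd
      refine ⟨(a₁ ^ 2 + a₁ * a₂ + a₂ ^ 2 + W₀.a₂ * (a₁ + a₂) + W₀.a₄ - W₀.a₁ * b₂) * ↑d⁻¹,
        ?_, ?_⟩
      · have hinv : ((↑d⁻¹ : A) : K) * ((b₁ + b₂ + W₀.a₁ * a₁ + W₀.a₃ : A) : K) = 1 := by
          rw [← hd']
          exact_mod_cast congrArg (fun z : A => (z : K)) (Units.inv_mul d)
        push_cast at hinv ⊢
        linear_combination l * hinv - ((↑d⁻¹ : A) : K) * s₂
      · have hinv : π (↑d⁻¹ : A) * π (b₁ + b₂ + W₀.a₁ * a₁ + W₀.a₃) = 1 := by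
          rw [← hd', ← map_mul, Units.inv_mul, map_one]
        simp only [map_add, map_mul, map_sub, map_pow] at hinv ⊢
        linear_combination m * hinv - π (↑d⁻¹ : A) * t₂
    · obtain ⟨d, hd'⟩ := isUnit_of_residue_ne_zero A (z := a₁ - a₂)
        (by rw [map_sub]; exact sub_ne_zero.mpr hx)
      refine ⟨(b₁ - b₂) * ↑d⁻¹, ?_, ?_⟩
      · have hinv : ((↑d⁻¹ : A) : K) * ((a₁ - a₂ : A) : K) = 1 := by
          rw [← hd']
          exact_mod_cast congrArg (fun z : A => (z : K)) (Units.inv_mul d)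
        push_cast at hinv ⊢
        linear_combination l * hinv - ((↑d⁻¹ : A) : K) * s₁
      · have hinv : π (↑d⁻¹ : A) * π (a₁ - a₂) = 1 := by
          rw [← hd', ← map_mul, Units.inv_mul, map_one]
        simp only [map_mul, map_sub] at hinv ⊢
        linear_combination m * hinv - π (↑d⁻¹ : A) * t₁
  have ex : (genCurve A W₀).addX (a₁ : K) a₂ l = ((W₀.toAffine.addX a₁ a₂ L : A) : K) := by
    rw [← hL]; exact map_addX A.subtype a₁ a₂ L
  have ey : (genCurve A W₀).addY (a₁ : K) a₂ b₁ l = ((W₀.toAffine.addY a₁ a₂ b₁ L : A) : K) := by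
    rw [← hL]
    have := map_addY (W' := W₀.toAffine) A.subtype a₁ b₁ a₂ L
    simp only [ValuationSubring.subtype_apply] at this
    exact this
  have hns : (genCurve A W₀).Nonsingular ((W₀.toAffine.addX a₁ a₂ L : A) : K)
      ((W₀.toAffine.addY a₁ a₂ b₁ L : A) : K) :=
    ex ▸ ey ▸ nonsingular_add h₁ h₂ hne'
  refine ⟨_, _, ⟨hns, ?_⟩, ?_, ?_⟩
  · rw [Point.add_some hne']
    simp only [← hl_def, ex, ey]
  · rw [← hπL]; exact (map_addX π a₁ a₂ L).symm
  · rw [← hπL]; exact (map_addY π a₁ b₁ a₂ L).symm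

/-- Opposite nonsingular reductions add up to a point of `E₁`. -/
theorem add_inE1 {P Q : (genCurve A W₀).Point} {a₁ b₁ a₂ b₂ : A} (hP : IsLift P a₁ b₁)
    (hQ : IsLift Q a₂ b₂) (hns : (redCurve A W₀).Nonsingular (π a₁) (π b₁)) (hx : π a₁ = π a₂)
    (hy : π b₁ = (redCurve A W₀).negY (π a₂) (π b₂)) : InE1 (P + Q) := by
  obtain ⟨h₁, rfl⟩ := hP
  obtain ⟨h₂, rfl⟩ := hQ
  by_cases hxy : (a₁ : K) = a₂ ∧ (b₁ : K) = (genCurve A W₀).negY a₂ b₂
  · rw [Point.add_of_Y_eq hxy.1 hxy.2]; trivial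
  rw [Point.add_some hxy]
  show _ ∉ A
  intro hmem
  set l := (genCurve A W₀).slope (a₁ : K) a₂ b₁ b₂ with hl_def
  have hl : l ∈ A := by
    refine mem_of_quadratic A (e := (W₀.a₁ : K))
      (f := (genCurve A W₀).addX (a₁ : K) a₂ l + ((W₀.a₂ + a₁ + a₂ : A) : K)) W₀.a₁.2
      (A.add_mem _ _ hmem (SetLike.coe_mem _)) ?_
    simp only [addX, map_a₁, map_a₂, ValuationSubring.subtype_apply]
    push_cast
    ring
  lift l to A using hl with L hL
  have s₁ := slope_mul_sub h₁.1 h₂.1 hxy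
  have s₂ := slope_mul_add h₁.1 h₂.1 hxy
  rw [← hl_def] at s₁ s₂
  simp only [map_a₁, map_a₂, map_a₃, map_a₄, ValuationSubring.subtype_apply] at s₂
  have r₁ : π (L * (a₁ - a₂)) = π (b₁ - b₂) := congrArg π (Subtype.ext (by push_cast; exact s₁))
  have r₂ : π (L * (b₁ + b₂ + W₀.a₁ * a₁ + W₀.a₃)) =
      π (a₁ ^ 2 + a₁ * a₂ + a₂ ^ 2 + W₀.a₂ * (a₁ + a₂) + W₀.a₄ - W₀.a₁ * b₂) :=
    congrArg π (Subtype.ext (by push_cast; exact s₂))
  simp only [map_mul, map_sub, map_add, map_pow] at r₁ r₂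
  simp only [negY, map_a₁, map_a₃] at hy
  rw [← hx] at r₁ r₂ hy
  have hb : π b₁ = π b₂ := by linear_combination -r₁
  rw [← hb] at r₂ hy
  have hD : 2 * π b₁ + π W₀.a₁ * π a₁ + π W₀.a₃ = 0 := by linear_combination hy
  rcases (nonsingular_iff' _ _).mp hns |>.2 with h | h <;> apply h <;>
    simp only [map_a₁, map_a₂, map_a₃, map_a₄]
  · linear_combination r₂ - π L * hD
  · exact hD

omit [DecidableEq K] in
theorem exists_scaling {x y : K} (h : (genCurve A W₀).Equation x y) (hx : x ∉ A) :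
    ∃ t u : A, π t = 0 ∧ π u = 1 ∧ (t : K) ≠ 0 ∧ x = u / t ^ 2 ∧ y = u / t ^ 3 ∧
      u ^ 2 + W₀.a₁ * t * u ^ 2 + W₀.a₃ * t ^ 3 * u =
        u ^ 3 + W₀.a₂ * t ^ 2 * u ^ 2 + W₀.a₄ * t ^ 4 * u + W₀.a₆ * t ^ 6 := by
  rw [equation_iff] at h
  simp only [map_a₁, map_a₂, map_a₃, map_a₄, map_a₆, ValuationSubring.subtype_apply] at h
  rw [← A.valuation_le_one_iff, not_le] at hx
  set v := A.valuation
  have hx0 : x ≠ 0 := fun h0 => by simp [h0] at hx
  have ha : ∀ z : A, v (z : K) ≤ 1 := A.valuation_le_one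
  have hvx : 0 < v x := zero_lt_one.trans hx
  have hR : v (x ^ 3 + (W₀.a₂ : K) * x ^ 2 + W₀.a₄ * x + W₀.a₆) = v x ^ 3 := by
    have h1 : v ((W₀.a₂ : K) * x ^ 2) < v x ^ 3 := by
      rw [map_mul, map_pow]
      exact lt_of_le_of_lt (mul_le_of_le_one_left' (ha _)) (pow_lt_pow_right₀ hx (by norm_num))
    have h2 : v ((W₀.a₄ : K) * x) < v x ^ 3 := by
      rw [map_mul]
      exact lt_of_le_of_lt (mul_le_of_le_one_left' (ha _))
        (lt_of_eq_of_lt (pow_one _).symm (pow_lt_pow_right₀ hx (by norm_num)))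
    have h3 : v (W₀.a₆ : K) < v x ^ 3 :=
      lt_of_le_of_lt (ha _) (one_lt_pow₀ hx (by norm_num))
    rw [add_assoc, add_assoc, Valuation.map_add_eq_of_lt_left, map_pow]
    rw [map_pow]
    exact v.map_add_lt h1 (v.map_add_lt h2 h3)
  have hxy : v x < v y := by
    by_contra hc
    rw [not_lt] at hc
    have h4 : v (y ^ 2 + (W₀.a₁ : K) * x * y + W₀.a₃ * y) ≤ v x ^ 2 := by
      refine v.map_add_le (v.map_add_le ?_ ?_) ?_
      · rw [map_pow]; exact pow_le_pow_left' hc 2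
      · rw [map_mul, map_mul, pow_two]
        exact mul_le_mul' (mul_le_of_le_one_left' (ha _)) hc
      · rw [map_mul, pow_two]
        exact mul_le_mul' ((ha _).trans hx.le) hc
    rw [h, hR] at h4
    exact absurd h4 (not_le.mpr (pow_lt_pow_right₀ hx (by norm_num)))
  have hy : 1 < v y := hx.trans hxy
  have hy0 : y ≠ 0 := fun h0 => by simp [h0] at hy
  have hvy : 0 < v y := zero_lt_one.trans hy
  have hyx : v y ^ 2 = v x ^ 3 := by
    rw [← hR, ← h, add_assoc, Valuation.map_add_eq_of_lt_left, map_pow]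
    rw [map_pow, pow_two]
    refine v.map_add_lt ?_ ?_
    · rw [map_mul, map_mul]
      exact mul_lt_mul_of_pos_right (lt_of_le_of_lt (mul_le_of_le_one_left' (ha _)) hxy) hvy
    · rw [map_mul]
      exact mul_lt_mul_of_pos_right (lt_of_le_of_lt (ha _) hy) hvy
  have ht : v (x / y) < 1 := by
    rw [map_div₀]; exact (div_lt_one₀ hvy).mpr hxy
  have hu : v (x ^ 3 / y ^ 2) = 1 := by
    rw [map_div₀, map_pow, map_pow, hyx, div_self (pow_ne_zero _ hvx.ne')]
  let t : A := ⟨x / y, A.mem_of_valuation_le_one _ ht.le⟩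
  let u : A := ⟨x ^ 3 / y ^ 2, A.mem_of_valuation_le_one _ hu.le⟩
  have ht0 : (t : K) ≠ 0 := div_ne_zero hx0 hy0
  have hX : x = (u : K) / (t : K) ^ 2 := by simp only [t, u]; field_simp
  have hY : y = (u : K) / (t : K) ^ 3 := by simp only [t, u]; field_simp
  have hE : u ^ 2 + W₀.a₁ * t * u ^ 2 + W₀.a₃ * t ^ 3 * u =
      u ^ 3 + W₀.a₂ * t ^ 2 * u ^ 2 + W₀.a₄ * t ^ 4 * u + W₀.a₆ * t ^ 6 := by
    apply Subtype.ext
    push_cast
    rw [hX, hY] at h
    field_simp at h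
    linear_combination h
  have hπt : π t = 0 := residue_eq_zero_of_valuation_lt A ht
  refine ⟨t, u, hπt, ?_, ht0, hX, hY, hE⟩
  have hπu : π u ≠ 0 := fun h0 => (valuation_lt_of_residue_eq_zero A h0).ne hu
  have := congrArg π hE
  simp only [map_add, map_mul, map_pow, hπt, mul_zero, zero_mul, zero_pow, add_zero,
    ne_eq, OfNat.ofNat_ne_zero, not_false_eq_true] at this
  exact mul_left_cancel₀ (pow_ne_zero 2 hπu) (by linear_combination -this)

/-- Adding a point of `E₁` to an integral point does not change the reduction. -/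
theorem lift_add_inE1 {P R : (genCurve A W₀).Point} {a b : A} (hP : IsLift P a b) (hR : InE1 R) :
    ∃ a₃ b₃, IsLift (P + R) a₃ b₃ ∧ π a₃ = π a ∧ π b₃ = π b := by
  cases R with
  | zero => exact ⟨a, b, by rwa [← Point.zero_def, add_zero], rfl, rfl⟩
  | some x y hR' =>
  obtain ⟨h₁, rfl⟩ := hP
  have hax : (a : K) ≠ x := fun h => hR (h ▸ a.2)
  obtain ⟨t, u, hπt, hπu, ht0, rfl, rfl, hE⟩ := exists_scaling hR'.1 hR
  have hu : IsUnit u := isUnit_of_residue_ne_zero A (by rw [hπu]; exact one_ne_zero)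
  have hw' : IsUnit (u - a * t ^ 2) :=
    isUnit_of_residue_ne_zero A (by simp [hπu, hπt])
  obtain ⟨i, hi⟩ := hu.exists_right_inv
  obtain ⟨w, hw⟩ := hw'.exists_right_inv
  have hπi : π i = 1 := by simpa [hπu] using congrArg π hi
  have hπw : π w = 1 := by simpa [hπu, hπt] using congrArg π hw
  set g : A := (-W₀.a₃ + W₀.a₄ * t) * i + W₀.a₆ * t ^ 3 * i ^ 2 with hg
  set ν : A := (a - b * t) * w with hν
  set h' : A := w * (-b + a * (-W₀.a₁ + W₀.a₂ * t + t ^ 2 * g) + a ^ 2 * t) with hh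
  set H : A := g + (h' + h') + t * ν ^ 2 + W₀.a₁ * ν with hH
  set a₃ : A := a + t * H with ha₃
  set b₃ : A := W₀.toAffine.negY a₃ (H + t ^ 2 * ν * H + b) with hb₃
  have hE' : 1 - u + W₀.a₁ * t - W₀.a₂ * t ^ 2 = t ^ 3 * g := by
    rw [hg]
    linear_combination i ^ 2 * hE -
      (1 - u + W₀.a₁ * t - W₀.a₂ * t ^ 2) * (i * u + 1) * hi +
      (-W₀.a₃ * t ^ 3 + W₀.a₄ * t ^ 4) * i * hi
  have hν' : ν - a = t * h' := by
    rw [hν, hh]
    linear_combination a * w * hE' - a * (-hw)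
  set l := (genCurve A W₀).slope (a : K) ((u : K) / (t : K) ^ 2) b ((u : K) / (t : K) ^ 3) with hl
  have hwK : ((u : K) - a * t ^ 2) * w = 1 := by exact_mod_cast congrArg (fun z : A => (z : K)) hw
  have hlK : l = 1 / (t : K) + t * ν := by
    rw [hl, slope_of_X_ne hax, div_eq_iff (sub_ne_zero.mpr hax)]
    rw [hν]
    push_cast
    field_simp
    linear_combination ((a : K) - b * t) * (t : K) ^ 2 * hwK
  have hEK : 1 - (u : K) + W₀.a₁ * t - W₀.a₂ * t ^ 2 = (t : K) ^ 3 * g := by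
    exact_mod_cast congrArg (fun z : A => (z : K)) hE'
  have hνK : (ν : K) - a = t * h' := by exact_mod_cast congrArg (fun z : A => (z : K)) hν'
  have hX : (genCurve A W₀).addX (a : K) ((u : K) / (t : K) ^ 2) l = ((a₃ : A) : K) := by
    simp only [addX, map_a₁, map_a₂, ValuationSubring.subtype_apply, hlK, ha₃, hH]
    push_cast
    field_simp
    linear_combination hEK + 2 * (t : K) ^ 2 * hνK
  have hY : (genCurve A W₀).addY (a : K) ((u : K) / (t : K) ^ 2) b l = ((b₃ : A) : K) := by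
    rw [addY, negAddY, hX, hb₃]
    simp only [negY, map_a₁, map_a₃, ValuationSubring.subtype_apply, hlK]
    rw [ha₃]
    push_cast
    field_simp
    ring
  refine ⟨a₃, b₃, ⟨hX ▸ hY ▸ nonsingular_add h₁ hR' fun h => hax h.1, ?_⟩, ?_, ?_⟩
  · rw [Point.add_of_X_ne hax]
    simp only [← hl, hX, hY]
  · simp [ha₃, hπt]
  · simp only [hb₃, negY, ha₃, hH, hg, hh, hν, map_sub, map_neg, map_add, map_mul, map_pow,
      hπt, hπi, hπw]
    ring

theorem InE1.add {P Q : (genCurve A W₀).Point} (hP : InE1 P) (hQ : InE1 Q) : InE1 (P + Q) := by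
  rcases inE1_or_isLift (P + Q) with h | ⟨a, b, h⟩
  · exact h
  · obtain ⟨a', b', h', -, -⟩ := lift_add_inE1 h hQ.neg
    rw [add_neg_cancel_right] at h'
    exact (h'.not_inE1 hP).elim

theorem InE0.add {P Q : (genCurve A W₀).Point} (hP : InE0 P) (hQ : InE0 Q) : InE0 (P + Q) := by
  classical
  rcases hP with hP | ⟨a₁, b₁, hP, hn₁⟩
  · rcases hQ with hQ | ⟨a₂, b₂, hQ, hn₂⟩
    · exact Or.inl (hP.add hQ)
    · obtain ⟨a, b, h, ha, hb⟩ := lift_add_inE1 hQ hP
      exact Or.inr ⟨a, b, by rwa [add_comm], ha ▸ hb ▸ hn₂⟩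
  · rcases hQ with hQ | ⟨a₂, b₂, hQ, hn₂⟩
    · obtain ⟨a, b, h, ha, hb⟩ := lift_add_inE1 hP hQ
      exact Or.inr ⟨a, b, h, ha ▸ hb ▸ hn₁⟩
    · by_cases hc : π a₁ = π a₂ ∧ π b₁ = (redCurve A W₀).negY (π a₂) (π b₂)
      · exact Or.inl (add_inE1 hP hQ hn₁ hc.1 hc.2)
      · obtain ⟨a, b, h, ha, hb⟩ := add_lift hP hQ hc
        exact Or.inr ⟨a, b, h, ha ▸ hb ▸ nonsingular_add hn₁ hn₂ hc⟩

variable (A W₀) in
/-- The subgroup `E₁`. -/
def E1 : AddSubgroup (genCurve A W₀).Point where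
  carrier := {P | InE1 P}
  zero_mem' := trivial
  add_mem' := InE1.add
  neg_mem' := InE1.neg

variable (A W₀) in
/-- The subgroup `E₀`. -/
def E0 : AddSubgroup (genCurve A W₀).Point where
  carrier := {P | InE0 P}
  zero_mem' := Or.inl trivial
  add_mem' := InE0.add
  neg_mem' := InE0.neg

theorem E1_le_E0 : E1 A W₀ ≤ E0 A W₀ := fun _ h => Or.inl h

theorem not_mem_E0_iff {P : (genCurve A W₀).Point} :
    P ∉ E0 A W₀ ↔ ∃ a b, IsLift P a b ∧ ¬(redCurve A W₀).Nonsingular (π a) (π b) := by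
  constructor
  · intro h
    rcases inE1_or_isLift P with h1 | ⟨a, b, hl⟩
    · exact (h (Or.inl h1)).elim
    · exact ⟨a, b, hl, fun hn => h (Or.inr ⟨a, b, hl, hn⟩)⟩
  · rintro ⟨a, b, hl, hn⟩ (h1 | ⟨a', b', hl', hn'⟩)
    · exact hl.not_inE1 h1
    · obtain ⟨rfl, rfl⟩ := hl.unique hl'
      exact hn hn'

/-- Good reduction: every point has nonsingular reduction. -/
theorem mem_E0_of_good (hΔ : π W₀.Δ ≠ 0) (P : (genCurve A W₀).Point) : P ∈ E0 A W₀ := by
  by_contra h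
  obtain ⟨a, b, hl, hn⟩ := not_mem_E0_iff.mp h
  exact hn ((equation_iff_nonsingular_of_Δ_ne_zero (by rwa [map_Δ])).mp hl.redEquation)

end FLTAgent.EllLocal
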