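import Fermat.Agent.EllLocal.Unramified

/-!
# Semistable models in arbitrary residue characteristic

`sub_mem_E0_of_semistable`: inertia moves odd torsion into `E0` for good or multiplicative
reduction, the residue characteristic being arbitrary. `exists_valuation_pow_eq`: a torsion point
with singular reduction gives `z` with `v z ^ n = v Δ ^ k`, `n ∤ k`, fixed by inertia fixing the
point. Both are transported from the node form by `modelHom`.
-/

set_option autoImplicit false

namespace FLTAgent.EllLocal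

open WeierstrassCurve WeierstrassCurve.Affine

variable {K : Type*} [Field K] {A : ValuationSubring K}

local notation "π" => IsLocalRing.residue A

/-- An integral change of variables with unit `u` comes from the valuation ring. -/
theorem exists_integral_change {C : VariableChange K} (hu : A.valuation (C.u : K) = 1)
    (hr : C.r ∈ A) (hs : C.s ∈ A) (ht : C.t ∈ A) :
    ∃ C₀ : VariableChange A, C₀.map A.subtype = C := by
  have huA : (C.u : K) ∈ A := A.mem_of_valuation_le_one _ hu.le
  have hunit : IsUnit (⟨(C.u : K), huA⟩ : A) := (A.valuation_eq_one_iff _).mpr hu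
  refine ⟨⟨hunit.unit, ⟨C.r, hr⟩, ⟨C.s, hs⟩, ⟨C.t, ht⟩⟩, ?_⟩
  ext <;> rfl

theorem map_smul_eq_of_gen {W₀ W₁ : WeierstrassCurve A} {C : VariableChange K}
    {C₀ : VariableChange A} (hC₀ : C₀.map A.subtype = C)
    (h : C • genCurve A W₀ = genCurve A W₁) : C₀ • W₀ = W₁ := by
  apply WeierstrassCurve.map_injective (f := A.subtype) Subtype.val_injective
  show (C₀ • W₀).map A.subtype = W₁.map A.subtype
  rw [← WeierstrassCurve.map_variableChange, hC₀]
  exact h

variable [DecidableEq K]

/-- Transport of points along an equality of curves. -/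
def castPoint {W W' : Affine K} (h : W = W') : W.Point →+ W'.Point := h ▸ AddMonoidHom.id _

theorem castPoint_some {W W' : Affine K} (h : W = W') {x y : K} (hn : W.Nonsingular x y) :
    castPoint h (Point.some x y hn) = Point.some x y (h ▸ hn) := by
  subst h; rfl

theorem castPoint_injective {W W' : Affine K} (h : W = W') :
    Function.Injective (castPoint h) := by
  subst h; exact fun _ _ e => e

/-- The map on generic points attached to a change of model. -/
def modelHom {W₀ W₁ : WeierstrassCurve A} (C : VariableChange K)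
    (h : C • genCurve A W₀ = genCurve A W₁) :
    (genCurve A W₀).Point →+ (genCurve A W₁).Point :=
  (castPoint h).comp (vcPoint (genCurve A W₀) C)

theorem modelHom_some {W₀ W₁ : WeierstrassCurve A} {C : VariableChange K}
    (h : C • genCurve A W₀ = genCurve A W₁) {x y : K} (hn : (genCurve A W₀).Nonsingular x y) :
    modelHom C h (Point.some x y hn) =
      Point.some (vcX C x) (vcY C x y) (h ▸ nonsingular_vc C hn) := by
  rw [modelHom, AddMonoidHom.comp_apply, vcPoint_some, castPoint_some]

theorem modelHom_injective {W₀ W₁ : WeierstrassCurve A} {C : VariableChange K}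
    (h : C • genCurve A W₀ = genCurve A W₁) : Function.Injective (modelHom C h) :=
  (castPoint_injective h).comp (vcPoint_injective C)

theorem IsConjPoint.modelHom {W₀ W₁ : WeierstrassCurve A} {C : VariableChange K}
    (h : C • genCurve A W₀ = genCurve A W₁) {σ : K →+* K} (hσC : C.map σ = C)
    {P Q : (genCurve A W₀).Point} (hc : IsConjPoint σ P Q) :
    IsConjPoint σ (EllLocal.modelHom C h P) (EllLocal.modelHom C h Q) := by
  rcases hc with ⟨rfl, rfl⟩ | ⟨x, y, hP, hQ, rfl, rfl⟩
  · exact Or.inl ⟨map_zero _, map_zero _⟩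
  · refine Or.inr ⟨vcX C x, vcY C x y, h ▸ nonsingular_vc C hP, ?_, modelHom_some h hP, ?_⟩
    · rw [map_vcX C hσC, map_vcY C hσC]; exact h ▸ nonsingular_vc C hQ
    · simp only [modelHom_some h hQ, map_vcX C hσC, map_vcY C hσC]

/-- The `X`-coordinate change over the valuation ring. -/
def vcXA (C₀ : VariableChange A) (a : A) : A := ((C₀.u⁻¹ : Aˣ) : A) ^ 2 * (a - C₀.r)

/-- The `Y`-coordinate change over the valuation ring. -/
def vcYA (C₀ : VariableChange A) (a b : A) : A :=
  ((C₀.u⁻¹ : Aˣ) : A) ^ 3 * (b - C₀.s * (a - C₀.r) - C₀.t)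

/-- `E₀` does not depend on the integral model. -/
theorem modelHom_mem_E0_iff {W₀ W₁ : WeierstrassCurve A} {C₀ : VariableChange A}
    (hgen : C₀.map A.subtype • genCurve A W₀ = genCurve A W₁) {P : (genCurve A W₀).Point} :
    modelHom (C₀.map A.subtype) hgen P ∈ E0 A W₁ ↔ P ∈ E0 A W₀ := by
  have h₀ : C₀ • W₀ = W₁ := map_smul_eq_of_gen rfl hgen
  cases P with
  | zero => exact iff_of_true (by rw [← Point.zero_def, map_zero]; exact zero_mem _) (zero_mem _)
  | some x y h =>
  rw [modelHom_some hgen h]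
  have h' : (genCurve A W₁).Nonsingular (vcX (C₀.map A.subtype) x) (vcY (C₀.map A.subtype) x y) :=
    hgen ▸ nonsingular_vc _ h
  set C := C₀.map A.subtype with hC
  by_cases hx : x ∈ A
  · set a : A := ⟨x, hx⟩
    set b : A := ⟨y, y_mem_of_x_mem h.1 hx⟩
    have ex : vcX C x = ((vcXA C₀ a : A) : K) := rfl
    have ey : vcY C x y = ((vcYA C₀ a b : A) : K) := rfl
    have hl : IsLift (Point.some (vcX C x) (vcY C x y) h') (vcXA C₀ a) (vcYA C₀ a b) :=
      ⟨ex ▸ ey ▸ h', by simp only [ex, ey]⟩
    have hl₀ : IsLift (Point.some x y h) a b := ⟨h, rfl⟩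
    have crit : ∀ {W : WeierstrassCurve A} {Q : (genCurve A W).Point} {a b : A},
        IsLift Q a b → (Q ∈ E0 A W ↔ (redCurve A W).Nonsingular (π a) (π b)) := by
      intro W Q a b hl
      refine ⟨fun hQ => ?_, fun hn => Or.inr ⟨a, b, hl, hn⟩⟩
      by_contra hn
      exact not_mem_E0_iff.mpr ⟨a, b, hl, hn⟩ hQ
    rw [crit hl, crit hl₀]
    have hred : (C₀.map π) • (redCurve A W₀) = redCurve A W₁ := by
      rw [← h₀]; exact WeierstrassCurve.map_variableChange W₀ C₀ π
    have e1 : π (vcXA C₀ a) = vcX (C₀.map π) (π a) := by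
      simp [vcX, vcXA, VariableChange.map]
    have e2 : π (vcYA C₀ a b) = vcY (C₀.map π) (π a) (π b) := by
      simp [vcY, vcYA, VariableChange.map]
    rw [e1, e2, ← hred]
    constructor
    · rintro ⟨-, hn⟩
      refine ⟨hl₀.redEquation, ?_⟩
      by_contra hc
      simp only [not_or, ne_eq, not_not] at hc
      rw [polynomialX_vc, polynomialY_vc, hc.1, hc.2] at hn
      simp at hn
    · exact nonsingular_vc _
  · have hx' : vcX C x ∉ A := by
      intro hm
      apply hx
      have : x = (C.u : K) ^ 2 * vcX C x + C.r := by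
        simp [vcX, Units.val_inv_eq_inv_val]
      rw [this]
      exact A.add_mem _ _ (A.mul_mem _ _ (pow_mem (by simp [hC, VariableChange.map]) 2) hm)
        (by simp [hC, VariableChange.map])
    exact iff_of_true (Or.inl hx') (Or.inl hx)

variable [CharZero K] [IsAlgClosed K]

/-- Multiplicative reduction, any residue characteristic: inertia moves odd torsion into `E₀`. -/
theorem sub_mem_E0_of_multiplicative {W₀ : WeierstrassCurve A} (hc₄ : π W₀.c₄ ≠ 0)
    (hΔ : π W₀.Δ = 0) (hΔ0 : W₀.Δ ≠ 0) {σ : K →+* K} (hσ : InertiaLike A σ)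
    (hσW : (genCurve A W₀).map σ = genCurve A W₀) {P Q : (genCurve A W₀).Point}
    (h : IsConjPoint σ P Q) {n : ℕ} (hn : Odd n) (hP : n • P = 0) :
    Q - P ∈ E0 A W₀ := by
  obtain ⟨C, c, hC, hπc, hc0, -, hu, hr, hs, ht, hfix⟩ := exists_node_form W₀ hc₄ hΔ hΔ0
  obtain ⟨hσC, hσc⟩ := hfix σ hσ hσW
  obtain ⟨C₀, rfl⟩ := exists_integral_change hu hr hs ht
  rw [← modelHom_mem_E0_iff hC, map_sub]
  exact sub_mem_E0_node hπc hc0 hσ hσc (h.modelHom hC hσC) hn
    (by rw [← map_nsmul, hP, map_zero])

/-- Semistable reduction, any residue characteristic: inertia moves odd torsion into `E₀`. -/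
theorem sub_mem_E0_of_semistable {W₀ : WeierstrassCurve A}
    (hred : π W₀.Δ ≠ 0 ∨ π W₀.c₄ ≠ 0) (hΔ0 : W₀.Δ ≠ 0) {σ : K →+* K} (hσ : InertiaLike A σ)
    (hσW : (genCurve A W₀).map σ = genCurve A W₀) {P Q : (genCurve A W₀).Point}
    (h : IsConjPoint σ P Q) {n : ℕ} (hn : Odd n) (hP : n • P = 0) :
    Q - P ∈ E0 A W₀ := by
  by_cases hΔ : π W₀.Δ = 0
  · exact sub_mem_E0_of_multiplicative (hred.resolve_left (not_not.mpr hΔ)) hΔ hΔ0 hσ hσW h hn hP
  · exact mem_E0_of_good hΔ _

/-- Multiplicative reduction: an odd `n`-torsion point with singular reduction gives an element `z`,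
fixed by every inertia-like automorphism fixing the model and the point, with
`v z ^ n = v Δ ^ k` and `n ∤ k`. -/
theorem exists_valuation_pow_eq {W₀ : WeierstrassCurve A} (hc₄ : π W₀.c₄ ≠ 0)
    (hΔ : π W₀.Δ = 0) (hΔ0 : W₀.Δ ≠ 0) {P : (genCurve A W₀).Point} (hP : P ∉ E0 A W₀)
    {n : ℕ} (hn : Odd n) (h0 : n • P = 0) :
    ∃ (z : K) (k : ℤ), ¬(n : ℤ) ∣ k ∧
      A.valuation z ^ n = A.valuation (W₀.Δ : K) ^ k ∧
      ∀ σ : K →+* K, InertiaLike A σ → (genCurve A W₀).map σ = genCurve A W₀ →
        IsConjPoint σ P P → σ z = z := by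
  obtain ⟨C, c, hC, hπc, hc0, hvc, hu, hr, hs, ht, hfix⟩ := exists_node_form W₀ hc₄ hΔ hΔ0
  obtain ⟨C₀, rfl⟩ := exists_integral_change hu hr hs ht
  obtain ⟨x, y, h, hxy, hx, hkind, k, hk⟩ :=
    exists_zpow_of_torsion hπc hc0 (mt (modelHom_mem_E0_iff hC).mp hP) hn
      (by rw [← map_nsmul, h0, map_zero])
  refine ⟨x, k, ?_, hvc ▸ hk, fun σ hσ hσW hconj => ?_⟩
  · rintro ⟨m, rfl⟩
    rw [mul_comm, zpow_mul, zpow_natCast, pow_left_inj₀ zero_le zero_le (Nat.ne_of_gt hn.pos)] at hk
    have hlt : A.valuation (c : K) < A.valuation x :=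
      (hkind.elim (·.1) (·.1)).trans_le (pow_le_of_le_one zero_le hx.le two_ne_zero)
    exact not_rel_of_between hc0 hlt hx ⟨m, hk⟩
  · have h' := hconj.modelHom hC (hfix σ hσ hσW).1
    rw [hxy] at h'
    obtain ⟨hns, he⟩ := h'.eq_some
    injection he with e1
    exact e1.symm

end FLTAgent.EllLocal
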