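import Fermat.Agent.EllLocal.NodeKinds

/-!
# The component map of a node curve

`comp` sends a point of `y (y + x) = x ^ 3 + c` to the value group, `1` on `E0`; modulo powers of
`v c` it is additive (`comp_add`, `comp_nsmul`). The proof is elementary: three collinear points
are treated by their kinds (`comp_pair`, `line_kind`, `triple_line`); Tate curves are not used.
-/

set_option autoImplicit false

namespace FLTAgent.EllLocal

open WeierstrassCurve WeierstrassCurve.Affine

variable {K : Type*} [Field K] {A : ValuationSubring K} {c : A}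

local notation "π" => IsLocalRing.residue A
local notation "v" => A.valuation

/-- The node curve over the fraction field. -/
abbrev nodeGen (c : A) : Affine K := genCurve A (nodeCurve c)

theorem nodeGen_a₁ : (nodeGen c).a₁ = 1 := by simp [nodeCurve]
theorem nodeGen_a₂ : (nodeGen c).a₂ = 0 := by simp [nodeCurve]
theorem nodeGen_a₃ : (nodeGen c).a₃ = 0 := by simp [nodeCurve]
theorem nodeGen_a₄ : (nodeGen c).a₄ = 0 := by simp [nodeCurve]
theorem nodeGen_a₆ : (nodeGen c).a₆ = (c : K) := by simp [nodeCurve]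

theorem nodeGen_equation {x y : K} (h : (nodeGen c).Equation x y) :
    y * (y + x) = x ^ 3 + c := by
  rw [equation_iff, nodeGen_a₁, nodeGen_a₂, nodeGen_a₃, nodeGen_a₄, nodeGen_a₆] at h
  linear_combination h

theorem nodeGen_negY (x y : K) : (nodeGen c).negY x y = -(y + x) := by
  rw [negY, nodeGen_a₁, nodeGen_a₃]; ring

variable [DecidableEq K] (hc : IsLocalRing.residue A c = 0)

omit [DecidableEq K] in
include hc in
theorem residue_y_eq_zero {P : (nodeGen c).Point} {a b : A} (h : IsLift P a b) (ha : π a = 0) :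
    π b = 0 := by
  have := h.redEquation
  rw [equation_iff] at this
  simpa [nodeCurve, ha, hc] using this

include hc in
theorem notMem_E0_node_iff {P : (nodeGen c).Point} :
    P ∉ E0 A (nodeCurve c) ↔ ∃ a b, IsLift P a b ∧ π a = 0 := by
  rw [not_mem_E0_iff]
  refine exists₂_congr fun a b => and_congr_right fun hl => ?_
  constructor
  · intro hn
    by_contra ha
    apply hn
    refine ⟨hl.redEquation, ?_⟩
    have heq := hl.redEquation
    rw [equation_iff] at heq
    rw [evalEval_polynomialX, evalEval_polynomialY]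
    simp only [map_a₁, map_a₂, map_a₃, map_a₄, map_a₆, nodeCurve, map_one, map_zero, hc, one_mul,
      zero_mul, mul_zero, add_zero] at heq ⊢
    by_contra hcon
    simp only [not_or, ne_eq, not_not] at hcon
    obtain ⟨hX, hY⟩ := hcon
    have hx : π a ≠ 0 := ha
    have h6 : 6 * π a + 1 = 0 := by
      refine (mul_eq_zero.mp ?_).resolve_left hx
      linear_combination hY - 2 * hX
    have h9 : 9 * π a + 2 = 0 := by
      refine (mul_eq_zero.mp ?_).resolve_left (pow_ne_zero 3 hx)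
      linear_combination heq - (π b + 3 * π a ^ 2 + π a) * hX
    exact one_ne_zero (α := IsLocalRing.ResidueField A) (by linear_combination 2 * h9 - 3 * h6)
  · intro ha hn
    rcases ((nonsingular_iff' _ _).mp hn).2 with h | h <;> apply h <;>
      simp [nodeCurve, ha, residue_y_eq_zero hc hl ha]

include hc in
theorem notMem_E0_some {x y : K} (h : (nodeGen c).Nonsingular x y) :
    Point.some x y h ∉ E0 A (nodeCurve c) ↔ v x < 1 := by
  rw [notMem_E0_node_iff hc]
  constructor
  · rintro ⟨a, b, ⟨h', e⟩, ha⟩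
    simp only [Point.some.injEq] at e
    rw [e.1]; exact valuation_lt_of_residue_eq_zero A ha
  · intro hx
    have hxA := A.mem_of_valuation_le_one _ hx.le
    refine ⟨⟨x, hxA⟩, ⟨y, y_mem_of_x_mem h.1 hxA⟩, ⟨h, rfl⟩,
      residue_eq_zero_of_valuation_lt A hx⟩

open Classical in
/-- The component map. -/
noncomputable def comp : (nodeGen c).Point → A.ValueGroup
  | 0 => 1
  | .some x y _ => if v x < 1 then gval A (c : K) x y else 1

omit [DecidableEq K] in
theorem comp_some_of_lt {x y : K} (h : (nodeGen c).Nonsingular x y) (hx : v x < 1) :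
    comp (Point.some x y h) = gval A (c : K) x y :=
  if_pos hx

include hc in
theorem comp_of_mem_E0 {P : (nodeGen c).Point} (hP : P ∈ E0 A (nodeCurve c)) : comp P = 1 := by
  cases P with
  | zero => rfl
  | some x y h => exact if_neg fun hx => (notMem_E0_some hc h).mpr hx hP

variable (hc0 : (c : K) ≠ 0)

omit [DecidableEq K] in
include hc in
theorem valuation_c_lt_one : v (c : K) < 1 :=
  valuation_lt_of_residue_eq_zero A hc

include hc0 in
theorem comp_ne_zero (P : (nodeGen c).Point) : comp P ≠ 0 := by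
  cases P with
  | zero => exact one_ne_zero
  | some x y h =>
    by_cases hx : v x < 1
    · rw [comp_some_of_lt h hx]; exact gval_ne_zero hc0 hx (nodeGen_equation h.1)
    · rw [comp, if_neg hx]; exact one_ne_zero

omit [DecidableEq K] in
include hc0 in
theorem comp_mul_neg (P : (nodeGen c).Point) : Rel A (c : K) (comp P * comp (-P)) := by
  cases P with
  | zero => simp only [← Point.zero_def, Point.neg_zero, comp, mul_one]; exact Rel.one
  | some x y h =>
    rw [Point.neg_some, comp, comp]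
    by_cases hx : v x < 1
    · rw [if_pos hx, if_pos hx, nodeGen_negY]; exact gval_mul_neg hc0 hx (nodeGen_equation h.1)
    · rw [if_neg hx, if_neg hx, mul_one]; exact Rel.one

omit [DecidableEq K] in
theorem addX_node (x₁ x₂ l : K) : (nodeGen c).addX x₁ x₂ l = l * (l + 1) - x₁ - x₂ := by
  rw [addX, nodeGen_a₁, nodeGen_a₂]; ring

include hc in
/-- The sum is singular when the slope is congruent to `0` or `-1`. -/
theorem notMem_E0_add {x₁ x₂ y₁ y₂ : K} (h₁ : (nodeGen c).Nonsingular x₁ y₁)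
    (h₂ : (nodeGen c).Nonsingular x₂ y₂) (hx₁ : v x₁ < 1) (hx₂ : v x₂ < 1)
    (hxy : ¬(x₁ = x₂ ∧ y₁ = (nodeGen c).negY x₂ y₂))
    (hl : v ((nodeGen c).slope x₁ x₂ y₁ y₂) < 1 ∨ v ((nodeGen c).slope x₁ x₂ y₁ y₂ + 1) < 1) :
    Point.some x₁ y₁ h₁ + Point.some x₂ y₂ h₂ ∉ E0 A (nodeCurve c) := by
  rw [Point.add_some hxy, notMem_E0_some hc, addX_node]
  set l := (nodeGen c).slope x₁ x₂ y₁ y₂
  have h : v (l * (l + 1)) < 1 := by
    rw [map_mul]
    rcases hl with h | h
    · refine lt_of_le_of_lt (mul_le_of_le_one_right' ?_) h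
      exact A.valuation.map_add_le h.le (map_one (v)).le
    · refine lt_of_le_of_lt (mul_le_of_le_one_left' ?_) h
      have := A.valuation.map_sub_le h.le (map_one (v)).le
      rwa [add_sub_cancel_right] at this
  exact A.valuation.map_sub_lt (A.valuation.map_sub_lt h hx₁) hx₂

omit [DecidableEq K] in
/-- Slope estimate when the first point dominates. -/
theorem slope_small_of_lt {x₁ x₂ y₁ y₂ l : K} (hs : l * (x₁ - x₂) = y₁ - y₂)
    (hlt : v x₂ < v x₁) (hy₂ : v y₂ < v x₁) (hw₂ : v (y₂ + x₂) < v x₁)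
    (h₁ : IsPos A (c : K) x₁ y₁ ∨ IsNeg A (c : K) x₁ y₁) :
    v l < 1 ∨ v (l + 1) < 1 := by
  have hd : v (x₁ - x₂) = v x₁ := Valuation.map_sub_eq_of_lt_left _ hlt
  have hpos : (0 : A.ValueGroup) < v x₁ := lt_of_le_of_lt zero_le hlt
  rcases h₁ with ⟨-, -, hw⟩ | ⟨-, -, hy⟩
  · right
    have := A.valuation.map_sub_lt hw hw₂
    rw [show y₁ + x₁ - (y₂ + x₂) = (l + 1) * (x₁ - x₂) by linear_combination -hs, map_mul, hd]
      at this
    exact lt_of_mul_lt_mul_right' (lt_of_lt_of_eq this (one_mul _).symm)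
  · left
    have := A.valuation.map_sub_lt hy hy₂
    rw [← hs, map_mul, hd] at this
    exact lt_of_mul_lt_mul_right' (lt_of_lt_of_eq this (one_mul _).symm)

omit [DecidableEq K] in
theorem small_of_kinds {x y M : K} (hM : v x < v M) (hM2 : v (c : K) < v M ^ 2)
    (h : IsMid A (c : K) x y ∨ IsPos A (c : K) x y ∨ IsNeg A (c : K) x y) :
    v y < v M ∧ v (y + x) < v M := by
  rcases h with ⟨-, hw, hy⟩ | ⟨-, hy, hw⟩ | ⟨-, hw, hy⟩
  · have : v y < v M := by
      by_contra hcon
      exact hM2.not_ge (hy ▸ pow_le_pow_left' (not_lt.mp hcon) 2)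
    exact ⟨this, hw ▸ this⟩
  · exact ⟨hy ▸ hM, hw.trans hM⟩
  · exact ⟨hy.trans hM, hw ▸ hM⟩

include hc hc0 in
/-- Two singular points with sum in `E₀` have inverse components. -/
theorem comp_pair {P Q : (nodeGen c).Point} (hP : P ∉ E0 A (nodeCurve c))
    (hQ : Q ∉ E0 A (nodeCurve c)) (hS : P + Q ∈ E0 A (nodeCurve c)) :
    Rel A (c : K) (comp P * comp Q) := by
  cases P with
  | zero => exact (hP (E0 A _).zero_mem).elim
  | some x₁ y₁ h₁ =>
  cases Q with
  | zero => exact (hQ (E0 A _).zero_mem).elim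
  | some x₂ y₂ h₂ =>
  rw [notMem_E0_some hc] at hP hQ
  by_cases hxy : x₁ = x₂ ∧ y₁ = (nodeGen c).negY x₂ y₂
  · have : Point.some x₁ y₁ h₁ = -Point.some x₂ y₂ h₂ := by
      rw [Point.neg_some]; simp [hxy.1, hxy.2]
    rw [this, mul_comm]; exact comp_mul_neg hc0 _
  have bad := fun hl => notMem_E0_add hc h₁ h₂ hP hQ hxy hl hS
  have s₁ := slope_mul_sub h₁.1 h₂.1 hxy
  have s₂ := slope_mul_add h₁.1 h₂.1 hxy
  rw [nodeGen_a₁, nodeGen_a₂, nodeGen_a₃, nodeGen_a₄] at s₂
  set l := (nodeGen c).slope x₁ x₂ y₁ y₂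
  rw [comp_some_of_lt _ hP, comp_some_of_lt _ hQ]
  have k₁ := kinds hc0 hP (nodeGen_equation h₁.1)
  have k₂ := kinds hc0 hQ (nodeGen_equation h₂.1)
  rcases lt_trichotomy (v x₁) (v x₂) with hlt | heq | hgt
  · -- the second point dominates
    rcases k₂ with m₂ | k₂'
    · rcases k₁ with m₁ | k₁'
      · rw [m₁.gval_eq, m₂.gval_eq]
        have : v y₁ = v y₂ :=
          (pow_left_inj₀ zero_le zero_le two_ne_zero).mp (m₁.2.2.trans m₂.2.2.symm)
        rw [this, ← pow_two, m₂.2.2]; exact Rel.self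
      · exfalso
        have h1 : v (c : K) < v x₁ ^ 2 := k₁'.elim (·.1) (·.1)
        exact (h1.trans_le (pow_le_pow_left' hlt.le 2)).not_ge
          (m₂.2.2 ▸ pow_le_pow_left' m₂.1 2)
    · exfalso
      have h2 : v (c : K) < v x₂ ^ 2 := k₂'.elim (·.1) (·.1)
      obtain ⟨e1, e2⟩ := small_of_kinds hlt h2 k₁
      exact bad (slope_small_of_lt (l := l) (by linear_combination -s₁) hlt e1 e2 k₂')
  · -- equal valuations
    rcases k₁ with m₁ | k₁'
    · rcases k₂ with m₂ | k₂'
      · rw [m₁.gval_eq, m₂.gval_eq]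
        have : v y₁ = v y₂ :=
          (pow_left_inj₀ zero_le zero_le two_ne_zero).mp (m₁.2.2.trans m₂.2.2.symm)
        rw [this, ← pow_two, m₂.2.2]; exact Rel.self
      · exfalso
        have h2 : v (c : K) < v x₂ ^ 2 := k₂'.elim (·.1) (·.1)
        exact h2.not_ge (heq ▸ m₁.2.2 ▸ pow_le_pow_left' m₁.1 2)
    · rcases k₂ with m₂ | k₂'
      · exfalso
        have h1 : v (c : K) < v x₁ ^ 2 := k₁'.elim (·.1) (·.1)
        exact h1.not_ge (heq.symm ▸ m₂.2.2 ▸ pow_le_pow_left' m₂.1 2)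
      · have hne : v x₁ ≠ 0 := valuation_ne_zero_of_sq (k₁'.elim (·.1) (·.1))
        have hpos : (0 : A.ValueGroup) < v x₁ := zero_lt_iff.mpr hne
        rcases k₁' with p₁ | n₁ <;> rcases k₂' with p₂ | n₂
        · exfalso
          refine bad (Or.inr ?_)
          have hD : v (y₁ + y₂ + x₁) = v x₁ := by
            rw [show y₁ + y₂ + x₁ = (y₁ + x₁) + y₂ by ring, Valuation.map_add_eq_of_lt_right,
              p₂.2.1, heq]
            rw [p₂.2.1, ← heq]; exact p₁.2.2
          have hN : v ((l + 1) * (y₁ + y₂ + x₁)) < v x₁ := by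
            rw [show (l + 1) * (y₁ + y₂ + x₁) = x₁ ^ 2 + x₁ * x₂ + x₂ ^ 2 + (y₁ + x₁) by
              linear_combination s₂]
            refine A.valuation.map_add_lt (A.valuation.map_add_lt (A.valuation.map_add_lt ?_ ?_) ?_)
              p₁.2.2
            · rw [map_pow, pow_two]; exact mul_lt_of_lt_one_left hpos hP
            · rw [map_mul, ← heq]; exact mul_lt_of_lt_one_left hpos hP
            · rw [map_pow, ← heq, pow_two]; exact mul_lt_of_lt_one_left hpos hP
          rw [map_mul, hD] at hN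
          exact lt_of_mul_lt_mul_right' (lt_of_lt_of_eq hN (one_mul _).symm)
        · rw [p₁.gval_eq, n₂.gval_eq, ← heq, mul_inv_cancel₀ hne]; exact Rel.one
        · rw [n₁.gval_eq, p₂.gval_eq, ← heq, inv_mul_cancel₀ hne]; exact Rel.one
        · exfalso
          refine bad (Or.inl ?_)
          have hD : v (y₁ + y₂ + x₁) = v x₁ := by
            rw [show y₁ + y₂ + x₁ = (y₁ + x₁) + y₂ by ring, Valuation.map_add_eq_of_lt_left,
              n₁.2.1]
            rw [n₁.2.1, heq]; exact n₂.2.2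
          have hN : v (l * (y₁ + y₂ + x₁)) < v x₁ := by
            rw [show l * (y₁ + y₂ + x₁) = x₁ ^ 2 + x₁ * x₂ + x₂ ^ 2 - y₂ by
              linear_combination s₂]
            refine A.valuation.map_sub_lt (A.valuation.map_add_lt (A.valuation.map_add_lt ?_ ?_) ?_)
              (heq ▸ n₂.2.2)
            · rw [map_pow, pow_two]; exact mul_lt_of_lt_one_left hpos hP
            · rw [map_mul, ← heq]; exact mul_lt_of_lt_one_left hpos hP
            · rw [map_pow, ← heq, pow_two]; exact mul_lt_of_lt_one_left hpos hP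
          rw [map_mul, hD] at hN
          exact lt_of_mul_lt_mul_right' (lt_of_lt_of_eq hN (one_mul _).symm)
  · -- the first point dominates
    rcases k₁ with m₁ | k₁'
    · rcases k₂ with m₂ | k₂'
      · rw [m₁.gval_eq, m₂.gval_eq]
        have : v y₁ = v y₂ :=
          (pow_left_inj₀ zero_le zero_le two_ne_zero).mp (m₁.2.2.trans m₂.2.2.symm)
        rw [this, ← pow_two, m₂.2.2]; exact Rel.self
      · exfalso
        have h2 : v (c : K) < v x₂ ^ 2 := k₂'.elim (·.1) (·.1)
        exact (h2.trans_le (pow_le_pow_left' hgt.le 2)).not_ge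
          (m₁.2.2 ▸ pow_le_pow_left' m₁.1 2)
    · exfalso
      have h1 : v (c : K) < v x₁ ^ 2 := k₁'.elim (·.1) (·.1)
      obtain ⟨e1, e2⟩ := small_of_kinds hgt h1 k₂
      exact bad (slope_small_of_lt s₁ hgt e1 e2 k₁')

omit [DecidableEq K] in
/-- The data at a singular point of a line of small slope. -/
theorem line_kind (hc0 : (c : K) ≠ 0) {x y l ν : K} (hx : v x < 1)
    (he : y * (y + x) = x ^ 3 + c) (hy : y = l * x + ν) (hl : v l < 1) :
    (v x ≤ v ν ∧ v ν ^ 2 = v (c : K) ∧ gval A (c : K) x y = v ν) ∨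
      (v (c : K) < v x ^ 2 ∧ ((v ν = v x ∧ gval A (c : K) x y = v x) ∨
        (v ν < v x ∧ gval A (c : K) x y = (v x)⁻¹))) := by
  have hle : v (l * x) ≤ v x := by rw [map_mul]; exact mul_le_of_le_one_left' hl.le
  rcases kinds hc0 hx he with h | h | h
  · left
    have hy0 : v y ≠ 0 := fun h0 => by
      have := h.2.2
      rw [h0, zero_pow two_ne_zero] at this
      exact hc0 ((Valuation.zero_iff _).mp this.symm)
    have hlt : v (l * x) < v y := by
      rw [map_mul]
      exact lt_of_le_of_lt (mul_le_mul_right h.1 _) (mul_lt_of_lt_one_left (zero_lt_iff.mpr hy0) hl)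
    have hν : v ν = v y := by
      rw [show ν = y - l * x by rw [hy]; ring, Valuation.map_sub_eq_of_lt_left _ hlt]
    exact ⟨hν ▸ h.1, hν ▸ h.2.2, hν ▸ h.gval_eq⟩
  · refine Or.inr ⟨h.1, ?_⟩
    have hx0 : (0 : A.ValueGroup) < v x := zero_lt_iff.mpr (valuation_ne_zero_of_sq h.1)
    have hlt : v (l * x) < v x := by rw [map_mul]; exact mul_lt_of_lt_one_left hx0 hl
    exact Or.inl ⟨by rw [show ν = y - l * x by rw [hy]; ring,
      Valuation.map_sub_eq_of_lt_left _ (h.2.1.symm ▸ hlt), h.2.1], h.gval_eq⟩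
  · refine Or.inr ⟨h.1, ?_⟩
    have hx0 : (0 : A.ValueGroup) < v x := zero_lt_iff.mpr (valuation_ne_zero_of_sq h.1)
    have hlt : v (l * x) < v x := by rw [map_mul]; exact mul_lt_of_lt_one_left hx0 hl
    refine Or.inr ⟨?_, h.gval_eq⟩
    rw [show ν = y - l * x by rw [hy]; ring]
    exact A.valuation.map_sub_lt h.2.2 hlt

omit [DecidableEq K] in
/-- Three collinear singular points on a line of small slope. -/
theorem triple_line (hc0 : (c : K) ≠ 0) {l ν x₁ x₂ x₃ : K}
    (hl : v l < 1) (hx₁ : v x₁ < 1) (hx₂ : v x₂ < 1) (hx₃ : v x₃ < 1)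
    (h₁ : (l * x₁ + ν) * (l * x₁ + ν + x₁) = x₁ ^ 3 + c)
    (h₂ : (l * x₂ + ν) * (l * x₂ + ν + x₂) = x₂ ^ 3 + c)
    (h₃ : (l * x₃ + ν) * (l * x₃ + ν + x₃) = x₃ ^ 3 + c)
    (e2 : x₁ * x₂ + x₁ * x₃ + x₂ * x₃ = -((2 * l + 1) * ν))
    (e3 : x₁ * x₂ * x₃ = ν ^ 2 - c) :
    Rel A (c : K) (gval A (c : K) x₁ (l * x₁ + ν) * gval A (c : K) x₂ (l * x₂ + ν) *
      gval A (c : K) x₃ (l * x₃ + ν)) := by
  have hC : (0 : A.ValueGroup) < v (c : K) :=
    zero_lt_iff.mpr (by rwa [ne_eq, Valuation.zero_iff])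
  have h2l : v (2 * l + 1) = 1 := by
    rw [add_comm]
    refine A.valuation.map_one_add_of_lt ?_
    rw [two_mul]; exact A.valuation.map_add_lt hl hl
  have he2 : v ν = v (x₁ * x₂ + x₁ * x₃ + x₂ * x₃) := by
    rw [e2, Valuation.map_neg, map_mul, h2l, one_mul]
  have hmax : v ν ≤ v x₁ * v x₂ ∨ v ν ≤ v x₁ * v x₃ ∨ v ν ≤ v x₂ * v x₃ := by
    rw [he2, ← map_mul, ← map_mul, ← map_mul]
    rcases A.valuation.map_add' (x₁ * x₂ + x₁ * x₃) (x₂ * x₃) with h | h
    · rcases A.valuation.map_add' (x₁ * x₂) (x₁ * x₃) with h' | h'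
      exacts [Or.inl (h.trans h'), Or.inr (Or.inl (h.trans h'))]
    · exact Or.inr (Or.inr h)
  have hd : ∀ a b d : K, v b < v a → v d < v a → v (a + b + d) = v a := fun a b d e e' => by
    rw [add_assoc, Valuation.map_add_eq_of_lt_left _ (A.valuation.map_add_lt e e')]
  have he : v ν ^ 2 < v x₁ * v x₂ * v x₃ → v x₁ * v x₂ * v x₃ = v (c : K) := by
    intro h
    rw [← map_mul, ← map_mul, ← map_pow, e3] at h
    rw [← map_mul, ← map_mul, e3]
    have : v (ν ^ 2) < v (c : K) := by
      by_contra hcon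
      exact h.not_ge (A.valuation.map_sub_le le_rfl (not_lt.mp hcon))
    exact Valuation.map_sub_eq_of_lt_right _ this
  have hd₁₂ : v x₁ * v x₃ < v x₁ * v x₂ → v x₂ * v x₃ < v x₁ * v x₂ → v ν = v x₁ * v x₂ := by
    intro e e'
    rw [he2, ← map_mul]
    exact hd _ _ _ (by simpa using e) (by simpa using e')
  have hd₁₃ : v x₁ * v x₂ < v x₁ * v x₃ → v x₂ * v x₃ < v x₁ * v x₃ → v ν = v x₁ * v x₃ := by
    intro e e'
    rw [he2, ← map_mul, show x₁ * x₂ + x₁ * x₃ + x₂ * x₃ = x₁ * x₃ + x₁ * x₂ + x₂ * x₃ by ring]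
    exact hd _ _ _ (by simpa using e) (by simpa using e')
  have hd₂₃ : v x₁ * v x₂ < v x₂ * v x₃ → v x₁ * v x₃ < v x₂ * v x₃ → v ν = v x₂ * v x₃ := by
    intro e e'
    rw [he2, ← map_mul, show x₁ * x₂ + x₁ * x₃ + x₂ * x₃ = x₂ * x₃ + x₁ * x₂ + x₁ * x₃ by ring]
    exact hd _ _ _ (by simpa using e) (by simpa using e')
  rcases triple_core hC hx₁ hx₂ hx₃ (line_kind hc0 hx₁ h₁ rfl hl) (line_kind hc0 hx₂ h₂ rfl hl)
    (line_kind hc0 hx₃ h₃ rfl hl) hmax hd₁₂ hd₁₃ hd₂₃ he with h | h
  · rw [h]; exact Rel.one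
  · rw [h]; exact Rel.self.inv

include hc hc0 in
/-- Additivity of the component map. -/
theorem comp_add (P Q : (nodeGen c).Point) :
    Rel A (c : K) (comp (P + Q) * (comp P * comp Q)⁻¹) := by
  -- enough: three points with zero sum
  suffices key : ∀ R S T : (nodeGen c).Point, R + S + T = 0 →
      Rel A (c : K) (comp R * comp S * comp T) by
    have h1 := key P Q (-(P + Q)) (add_neg_cancel _)
    have h2 := comp_mul_neg hc0 (P + Q)
    have := h2.mul hc0 h1.inv
    rwa [← div_eq_mul_inv, mul_div_mul_right _ _ (comp_ne_zero hc0 (-(P + Q))),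
      div_eq_mul_inv] at this
  intro R S T h0
  have sym : T = -(R + S) := by rw [eq_neg_iff_add_eq_zero, add_comm, h0]
  have negmem : ∀ {X : (nodeGen c).Point}, -X ∈ E0 A (nodeCurve c) ↔ X ∈ E0 A (nodeCurve c) :=
    neg_mem_iff
  by_cases hR : R ∈ E0 A (nodeCurve c)
  · rw [comp_of_mem_E0 hc hR, one_mul]
    by_cases hS : S ∈ E0 A (nodeCurve c)
    · rw [comp_of_mem_E0 hc hS, one_mul, comp_of_mem_E0 hc (sym ▸ neg_mem (add_mem hR hS))]
      exact Rel.one
    · have hT : T ∉ E0 A (nodeCurve c) := fun hT => hS (by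
        rw [sym, negmem] at hT
        simpa using sub_mem hT hR)
      refine comp_pair hc hc0 hS hT ?_
      rw [sym, show S + -(R + S) = -R by abel, negmem]; exact hR
  by_cases hS : S ∈ E0 A (nodeCurve c)
  · rw [comp_of_mem_E0 hc hS, mul_one]
    have hT : T ∉ E0 A (nodeCurve c) := fun hT => hR (by
      rw [sym, negmem] at hT
      simpa using sub_mem hT hS)
    refine comp_pair hc hc0 hR hT ?_
    rw [sym, show R + -(R + S) = -S by abel, negmem]; exact hS
  by_cases hT : T ∈ E0 A (nodeCurve c)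
  · rw [comp_of_mem_E0 hc hT, mul_one]
    refine comp_pair hc hc0 hR hS ?_
    rwa [sym, negmem] at hT
  cases R with
  | zero => exact (hR (E0 A _).zero_mem).elim
  | some x₁ y₁ h₁ =>
  cases S with
  | zero => exact (hS (E0 A _).zero_mem).elim
  | some x₂ y₂ h₂ =>
  by_cases hxy : x₁ = x₂ ∧ y₁ = (nodeGen c).negY x₂ y₂
  · rw [sym, Point.add_of_Y_eq hxy.1 hxy.2, neg_zero] at hT
    exact (hT (E0 A _).zero_mem).elim
  rw [sym, Point.add_some hxy] at hT
  rw [sym, Point.add_some hxy, Point.neg_some]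
  rw [Point.neg_some] at hT
  rw [notMem_E0_some hc] at hR hS hT
  rw [comp_some_of_lt _ hR, comp_some_of_lt _ hS, comp_some_of_lt _ hT]
  have e : (nodeGen c).negY ((nodeGen c).addX x₁ x₂ ((nodeGen c).slope x₁ x₂ y₁ y₂))
      ((nodeGen c).addY x₁ x₂ y₁ ((nodeGen c).slope x₁ x₂ y₁ y₂)) =
      (nodeGen c).negAddY x₁ x₂ y₁ ((nodeGen c).slope x₁ x₂ y₁ y₂) := by
    rw [addY, negY_negY]
  rw [e]
  have heq₃ := nodeGen_equation (equation_negAdd h₁.1 h₂.1 hxy)
  have hap := addPolynomial_slope h₁.1 h₂.1 hxy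
  rw [addPolynomial_eq, neg_inj, Cubic.prod_X_sub_C_eq, Cubic.toPoly_injective] at hap
  have eb := congrArg Cubic.b hap
  have ec := congrArg Cubic.c hap
  have ed := congrArg Cubic.d hap
  simp only [nodeGen_a₁, nodeGen_a₂, nodeGen_a₃, nodeGen_a₄, nodeGen_a₆] at eb ec ed
  have hs := slope_mul_sub h₁.1 h₂.1 hxy
  simp only [negAddY] at heq₃ ⊢
  set l := (nodeGen c).slope x₁ x₂ y₁ y₂ with hl_def
  set x₃ := (nodeGen c).addX x₁ x₂ l with hx₃_def
  set ν := y₁ - l * x₁ with hν
  have hy₁ : y₁ = l * x₁ + ν := by rw [hν]; ring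
  have hy₂ : y₂ = l * x₂ + ν := by rw [hν]; linear_combination hs
  have hy₃ : l * (x₃ - x₁) + y₁ = l * x₃ + ν := by rw [hν]; ring
  have q₁ := nodeGen_equation h₁.1
  have q₂ := nodeGen_equation h₂.1
  rw [hy₁] at q₁ ⊢
  rw [hy₂] at q₂ ⊢
  rw [show l * (x₃ - x₁) + (l * x₁ + ν) = l * x₃ + ν by ring]
  rw [hy₃] at heq₃
  have e2 : x₁ * x₂ + x₁ * x₃ + x₂ * x₃ = -((2 * l + 1) * ν) := by
    rw [hν]; linear_combination -ec
  have e3 : x₁ * x₂ * x₃ = ν ^ 2 - c := by rw [hν]; linear_combination ed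
  have e1 : v (l * (l + 1)) < 1 := by
    rw [show l * (l + 1) = x₁ + x₂ + x₃ by linear_combination -eb]
    exact A.valuation.map_add_lt (A.valuation.map_add_lt hR hS) hT
  rcases lt_or_ge (v l) 1 with hl | hl
  · exact triple_line hc0 hl hR hS hT q₁ q₂ heq₃ e2 e3
  · have hl' : v (-1 - l) < 1 := by
      rw [show -1 - l = -(l + 1) by ring, Valuation.map_neg]
      rw [map_mul] at e1
      exact lt_of_le_of_lt (le_mul_of_one_le_left' hl) e1
    have ht := triple_line hc0 (l := -1 - l) (ν := -ν) hl' hR hS hT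
      (by linear_combination q₁) (by linear_combination q₂) (by linear_combination heq₃)
      (by linear_combination e2) (by linear_combination e3)
    have hm : ∀ x, (-1 - l) * x + -ν = -((l * x + ν) + x) := fun x => by ring
    simp only [hm] at ht
    have m₁ := gval_mul_neg hc0 hR q₁
    have m₂ := gval_mul_neg hc0 hS q₂
    have m₃ := gval_mul_neg hc0 hT heq₃
    convert ((m₁.mul hc0 m₂).mul hc0 m₃).mul hc0 ht.inv using 1
    have := gval_ne_zero hc0 hR (x := x₁) (y := -(l * x₁ + ν + x₁)) (by linear_combination q₁)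
    have := gval_ne_zero hc0 hS (x := x₂) (y := -(l * x₂ + ν + x₂)) (by linear_combination q₂)
    have := gval_ne_zero hc0 hT (x := x₃) (y := -(l * x₃ + ν + x₃)) (by linear_combination heq₃)
    field_simp

include hc hc0 in
/-- The component map takes multiples to powers, modulo powers of `v c`. -/
theorem comp_nsmul (P : (nodeGen c).Point) (n : ℕ) :
    Rel A (c : K) (comp (n • P) * (comp P ^ n)⁻¹) := by
  induction n with
  | zero => rw [zero_smul, pow_zero, inv_one, mul_one]; exact Rel.one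
  | succ n ih =>
    rw [succ_nsmul]
    convert (comp_add hc hc0 (n • P) P).mul hc0 ih using 1
    have := comp_ne_zero hc0 P
    have := comp_ne_zero hc0 (n • P)
    simp only [mul_inv, pow_succ]
    rw [mul_mul_mul_comm, mul_comm ((comp (n • P))⁻¹) _, ← mul_assoc]
    field_simp

end FLTAgent.EllLocal
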