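import Fermat.Agent.EllLocal.Unramified
import Fermat.Prelude.Def_FLTPrelim_FreyPackage
import Mathlib.RingTheory.Int.Basic

/-!
# The Frey curve at odd primes `q ≠ p`

`frey_unramified`: the mod `p` representation of a Frey package is unramified at every odd prime
`q ≠ p`. Its model is semistable at `q` and its discriminant is a `2p`-th power up
to a unit, so `eq_of_conj_semistable` applies.
-/

set_option autoImplicit false

namespace FLTAgent.EllLocal

open WeierstrassCurve WeierstrassCurve.Affine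

section

variable {L : Type*} [Field L] {A : ValuationSubring L} {q : ℕ}

theorem intCast_residue_eq_zero_iff (hq : q.Prime) (hA : A.LiesOverPrime q) (n : ℤ) :
    IsLocalRing.residue A (n : A) = 0 ↔ (q : ℤ) ∣ n := by
  have hq0 : IsLocalRing.residue A ((q : ℤ) : A) = 0 :=
    residue_eq_zero_of_valuation_lt A (by simpa [ValuationSubring.LiesOverPrime,
      ValuationSubring.mem_nonunits_iff] using hA)
  refine ⟨fun hn => ?_, ?_⟩
  · by_contra hdvd
    obtain ⟨a, b, hab⟩ :=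
      (Prime.coprime_iff_not_dvd (Nat.prime_iff_prime_int.mp hq)).mpr hdvd
    have := congrArg (fun m : ℤ => IsLocalRing.residue A (m : A)) hab
    simp only [Int.cast_add, Int.cast_mul, Int.cast_one, map_add, map_mul, map_one, hq0, hn,
      mul_zero, add_zero, zero_ne_one] at this
  · rintro ⟨k, rfl⟩
    rw [Int.cast_mul, map_mul, hq0, zero_mul]

theorem valuation_intCast_eq_one (hq : q.Prime) (hA : A.LiesOverPrime q) {n : ℤ}
    (hn : ¬(q : ℤ) ∣ n) : A.valuation (n : L) = 1 := by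
  have := (A.valuation_eq_one_iff (n : A)).mp
    (isUnit_of_residue_ne_zero A fun h => hn ((intCast_residue_eq_zero_iff hq hA n).mp h))
  simpa using this

end

local notation "Q̄" => AlgebraicClosure ℚ

/-- The mod `p` representation of a Frey package is unramified at odd primes `q ≠ p`. -/
theorem frey_unramified (P : FreyPackage) {q : ℕ} (hq : q.Prime) (hq2 : q ≠ 2)
    (hqp : q ≠ P.p) : P.GaloisRepUnramifiedAt q := by
  intro A hA σ hσ x
  set v := A.valuation with hv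
  have hnd2 : ¬(q : ℤ) ∣ 2 := by
    intro h
    exact hq2 ((Nat.prime_dvd_prime_iff_eq hq Nat.prime_two).mp (Int.natCast_dvd_natCast.mp h))
  have h2 : v (2 : Q̄) = 1 := by simpa using valuation_intCast_eq_one hq hA hnd2
  have h4 : v (4 : Q̄) = 1 := by
    rw [show (4 : Q̄) = 2 ^ 2 by norm_num, map_pow, h2, one_pow]
  have h16 : v (16 : Q̄) = 1 := by
    rw [show (16 : Q̄) = 2 ^ 4 by norm_num, map_pow, h2, one_pow]
  have hint : ∀ n : ℤ, v (n : Q̄) ≤ 1 := fun n =>
    (A.valuation_le_one_iff _).mpr (intCast_mem A n)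
  -- the integral model
  set a₂ : Q̄ := ((P.b ^ P.p - 1 - P.a ^ P.p : ℤ) : Q̄) / 4 with ha₂
  set a₄ : Q̄ := ((-(P.a ^ P.p) * P.b ^ P.p : ℤ) : Q̄) / 16 with ha₄
  have m₂ : a₂ ∈ A := A.mem_of_valuation_le_one _
    (by rw [← hv, ha₂, map_div₀, h4, div_one]; exact hint _)
  have m₄ : a₄ ∈ A := A.mem_of_valuation_le_one _
    (by rw [← hv, ha₄, map_div₀, h16, div_one]; exact hint _)
  let W₀ : WeierstrassCurve A := ⟨1, ⟨a₂, m₂⟩, 0, ⟨a₄, m₄⟩, 0⟩
  have hW : (P.freyCurve⁄Q̄) = genCurve A W₀ := by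
    ext <;> simp [FreyPackage.freyCurve, W₀, ha₂, ha₄]
  have hσI := inertiaLike_of_mem hσ
  have hσW : ((P.freyCurve⁄Q̄) : WeierstrassCurve Q̄).map (σ : Q̄ →+* Q̄) = (P.freyCurve⁄Q̄) := by
    ext <;> simp [FreyPackage.freyCurve, map_ofNat σ]
  -- invariants
  set X : ℤ := P.a ^ P.p with hX
  set Y : ℤ := P.b ^ P.p with hY
  have hXY : X + Y = P.c ^ P.p := P.hFLT
  have hc₄ : (W₀.c₄ : Q̄) = ((X ^ 2 + X * Y + Y ^ 2 : ℤ) : Q̄) := by
    rw [← ValuationSubring.subtype_apply, ← map_c₄]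
    simp only [c₄, b₂, b₄, W₀, WeierstrassCurve.map, ValuationSubring.subtype_apply, ha₂, ha₄,
      map_one, map_zero]
    push_cast
    field_simp
    ring
  have hΔ : (W₀.Δ : Q̄) = ((P.a * P.b * P.c : ℤ) : Q̄) ^ (2 * P.p) / 256 := by
    rw [← ValuationSubring.subtype_apply, ← map_Δ]
    simp only [WeierstrassCurve.Δ, b₂, b₄, b₆, b₈, W₀, WeierstrassCurve.map,
      ValuationSubring.subtype_apply, ha₂, ha₄, map_one, map_zero]
    have hc' : ((P.c : Q̄)) ^ P.p = (X : Q̄) + (Y : Q̄) := by exact_mod_cast hXY.symm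
    push_cast
    rw [mul_comm 2 P.p, pow_mul, mul_pow, mul_pow, hc']
    simp only [hX, hY]
    push_cast
    field_simp
    ring
  have h256 : v (256 : Q̄) = 1 := by
    rw [show (256 : Q̄) = 2 ^ 8 by norm_num, map_pow, h2, one_pow]
  have hvΔ : v (W₀.Δ : Q̄) = v ((P.a * P.b * P.c : ℤ) : Q̄) ^ (2 * P.p) := by
    rw [hΔ, map_div₀, map_pow, h256, div_one]
  have hp : Odd P.p := P.hp_odd
  have hpA : (P.p : IsLocalRing.ResidueField A) ≠ 0 := by
    rw [← map_natCast (IsLocalRing.residue A), ← Int.cast_natCast (R := A)]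
    intro h
    exact hqp ((Nat.prime_dvd_prime_iff_eq hq P.pp).mp
      (Int.natCast_dvd_natCast.mp ((intCast_residue_eq_zero_iff hq hA _).mp h)))
  have hred : IsLocalRing.residue A W₀.Δ ≠ 0 ∨
      (IsLocalRing.residue A W₀.c₄ ≠ 0 ∧ W₀.Δ ≠ 0 ∧
        ∃ d : Q̄, (σ : Q̄ →+* Q̄) d = d ∧ A.valuation d ^ P.p = A.valuation (W₀.Δ : Q̄)) := by
    by_cases hdvd : (q : ℤ) ∣ P.a * P.b * P.c
    · refine Or.inr ⟨?_, ?_, (((P.a * P.b * P.c) ^ 2 : ℤ) : Q̄), map_intCast _ _, ?_⟩
      · rw [show W₀.c₄ = ((X ^ 2 + X * Y + Y ^ 2 : ℤ) : A) from Subtype.ext (by simpa using hc₄)]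
        intro h
        have hq' : Prime (q : ℤ) := Nat.prime_iff_prime_int.mp hq
        have hd := (intCast_residue_eq_zero_iff hq hA _).mp h
        have hab : ¬((q : ℤ) ∣ P.a ∧ (q : ℤ) ∣ P.b) := fun ⟨u, w⟩ =>
          hq'.not_dvd_one (P.hgcdab ▸ dvd_gcd u w)
        have hpow : ∀ z : ℤ, (q : ℤ) ∣ z ^ P.p ↔ (q : ℤ) ∣ z := fun z =>
          ⟨hq'.dvd_of_dvd_pow, fun hz => dvd_pow hz P.hp0⟩
        have hXY' : ¬((q : ℤ) ∣ X ∧ (q : ℤ) ∣ Y) := by
          rw [hX, hY, hpow, hpow]; exact hab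
        rcases hq'.dvd_or_dvd hdvd with hab' | hc
        · rcases hq'.dvd_or_dvd hab' with ha | hb
          · have hx : (q : ℤ) ∣ X := hX ▸ (hpow _).mpr ha
            refine hXY' ⟨hx, hq'.dvd_of_dvd_pow (n := 2) ?_⟩
            rw [show Y ^ 2 = X ^ 2 + X * Y + Y ^ 2 - X * (X + Y) by ring]
            exact dvd_sub hd (hx.mul_right _)
          · have hy : (q : ℤ) ∣ Y := hY ▸ (hpow _).mpr hb
            refine hXY' ⟨hq'.dvd_of_dvd_pow (n := 2) ?_, hy⟩
            rw [show X ^ 2 = X ^ 2 + X * Y + Y ^ 2 - Y * (X + Y) by ring]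
            exact dvd_sub hd (hy.mul_right _)
        · have hs : (q : ℤ) ∣ X + Y := hXY ▸ (hpow _).mpr hc
          have hy : (q : ℤ) ∣ Y := hq'.dvd_of_dvd_pow (n := 2) (by
            rw [show Y ^ 2 = X ^ 2 + X * Y + Y ^ 2 - X * (X + Y) by ring]
            exact dvd_sub hd (hs.mul_left _))
          exact hXY' ⟨by simpa using dvd_sub hs hy, hy⟩
      · intro h0
        have : (W₀.Δ : Q̄) = 0 := by rw [h0]; rfl
        rw [hΔ] at this
        simp [P.ha0, P.hb0, P.hc0, P.hp0] at this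
      · rw [← hv, hvΔ, Int.cast_pow, map_pow, ← pow_mul]
    · refine Or.inl fun h => ?_
      have := valuation_lt_of_residue_eq_zero A h
      rw [← hv, hvΔ, valuation_intCast_eq_one hq hA hdvd, one_pow] at this
      exact lt_irrefl _ this
  have hconj : ∀ R : (P.freyCurve⁄Q̄).Point,
      IsConjPoint (σ : Q̄ →+* Q̄) R (σ • R) := by
    intro R
    cases R with
    | zero => exact Or.inl ⟨rfl, rfl⟩
    | some a b h =>
      refine Or.inr ⟨a, b, h,
        (baseChange_nonsingular (W := (P.freyCurve.toAffine)) (f := σ.toAlgHom)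
          σ.injective a b).mpr h, rfl, ?_⟩
      rw [Point.algEquiv_smul_def, Point.map_some]
      rfl
  have htor : ∀ R : Submodule.torsionBy ℤ (P.freyCurve⁄Q̄).Point P.p,
      P.p • (R : (P.freyCurve⁄Q̄).Point) = 0 := fun R => by
    rw [← natCast_zsmul]
    exact (Submodule.mem_torsionBy_iff _ _).mp R.2
  apply Subtype.ext
  exact eq_of_conj_semistable hW hσI hσW hp hpA hred (hconj _) (htor x) (htor (σ • x))

end FLTAgent.EllLocal
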