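import Fermat.Agent.EllLocal.Torsion

/-!
# Inertia-like endomorphisms and nonsingular torsion

`InertiaLike A σ`: the endomorphism `σ` behaves like an element of inertia for the valuation
subring `A`; `IsConjPoint` expresses that one point is the image of another. Main result
`eq_of_conj_mem_E0`: torsion points prime to the residue characteristic with nonsingular
reduction are fixed.
-/

set_option autoImplicit false

namespace FLTAgent.EllLocal

open WeierstrassCurve WeierstrassCurve.Affine

variable {K : Type*} [Field K]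

/-- `σ` preserves the valuation ring and induces the identity on its residue field. -/
def InertiaLike (A : ValuationSubring K) (σ : K →+* K) : Prop :=
  ∀ z : A, ∃ w : A, (w : K) = σ z ∧ IsLocalRing.residue A w = IsLocalRing.residue A z

namespace InertiaLike

variable {A : ValuationSubring K} {σ : K →+* K} (hσ : InertiaLike A σ)

include hσ

theorem map_mem {x : K} (hx : x ∈ A) : σ x ∈ A := by
  obtain ⟨w, hw, -⟩ := hσ ⟨x, hx⟩
  exact hw ▸ w.2

theorem valuation_sub_lt {x : K} (hx : A.valuation x ≤ 1) : A.valuation (σ x - x) < 1 := by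
  obtain ⟨w, hw, hr⟩ := hσ ⟨x, A.mem_of_valuation_le_one _ hx⟩
  have h := valuation_lt_of_residue_eq_zero A (z := w - ⟨x, A.mem_of_valuation_le_one _ hx⟩)
    (by rw [map_sub, hr, sub_self])
  push_cast at h
  rwa [hw] at h

theorem valuation_map_lt_one {x : K} (hx : A.valuation x < 1) : A.valuation (σ x) < 1 := by
  simpa using A.valuation.map_add_lt (hσ.valuation_sub_lt hx.le) hx

theorem valuation_map_eq_one {x : K} (hx : A.valuation x = 1) : A.valuation (σ x) = 1 := by
  rw [← hx]
  exact Valuation.map_eq_of_sub_lt _ (hx.symm ▸ hσ.valuation_sub_lt hx.le)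

theorem notMem_map {x : K} (hx : x ∉ A) : σ x ∉ A := by
  rw [← A.valuation_le_one_iff, not_le] at hx ⊢
  have h : A.valuation x⁻¹ < 1 := by
    rw [map_inv₀]; exact inv_lt_one_of_one_lt₀ hx
  have h' := hσ.valuation_map_lt_one h
  rw [map_inv₀, map_inv₀] at h'
  have hne : A.valuation (σ x) ≠ 0 := by
    rw [ne_eq, Valuation.zero_iff, map_eq_zero]
    rintro rfl
    simp at hx
  exact (inv_lt_one₀ (zero_lt_iff.mpr hne)).mp h'

/-- If `v x = v e` with `σ e = e`, then `σ x` agrees with `x` to first order. -/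
theorem valuation_sub_lt_of_fixed {x e : K} (he : σ e = e) (he0 : e ≠ 0)
    (hx : A.valuation x ≤ A.valuation e) : A.valuation (σ x - x) < A.valuation e := by
  have hv : (0 : A.ValueGroup) < A.valuation e :=
    zero_lt_iff.mpr (by rwa [ne_eq, Valuation.zero_iff])
  have h := hσ.valuation_sub_lt (x := x / e) (by rw [map_div₀]; exact (div_le_one₀ hv).mpr hx)
  rwa [map_div₀, he, ← sub_div, map_div₀, div_lt_one₀ hv] at h

/-- `σ` preserves the valuation of an element some power of which has the valuation of a fixed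
element. -/
theorem valuation_map_eq {x e : K} (he : σ e = e) {n : ℕ} (hn : n ≠ 0)
    (hx : A.valuation x ^ n = A.valuation e) : A.valuation (σ x) = A.valuation x := by
  rcases eq_or_ne x 0 with rfl | hx0
  · rw [map_zero]
  have hvx : A.valuation x ≠ 0 := by rwa [ne_eq, Valuation.zero_iff]
  have he0 : e ≠ 0 := fun h => pow_ne_zero n hvx (by rw [hx, h, Valuation.map_zero])
  have hlt := hσ.valuation_sub_lt_of_fixed he he0 (x := x ^ n) (by rw [map_pow, hx])
  have h := Valuation.map_eq_of_sub_lt A.valuation (x := x ^ n) (y := σ (x ^ n))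
    (by rwa [map_pow A.valuation, hx])
  rw [map_pow σ, map_pow, map_pow] at h
  exact (pow_left_inj₀ zero_le zero_le hn).mp h

end InertiaLike

variable {A : ValuationSubring K} {W : Affine K}

/-- `Q` is obtained from `P` by applying `σ` to the coordinates. -/
def IsConjPoint (σ : K →+* K) (P Q : W.Point) : Prop :=
  (P = 0 ∧ Q = 0) ∨ ∃ x y h h', P = Point.some x y h ∧ Q = Point.some (σ x) (σ y) h'

theorem IsConjPoint.vc [DecidableEq K] {σ : K →+* K} {P Q : W.Point} {C : VariableChange K}
    (hC : C.map σ = C) (h : IsConjPoint σ P Q) :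
    IsConjPoint σ (vcPoint W C P) (vcPoint W C Q) := by
  rcases h with ⟨rfl, rfl⟩ | ⟨x, y, hP, hQ, rfl, rfl⟩
  · exact Or.inl ⟨map_zero _, map_zero _⟩
  · refine Or.inr ⟨vcX C x, vcY C x y, nonsingular_vc C hP, ?_, rfl, ?_⟩
    · rw [map_vcX C hC, map_vcY C hC]; exact nonsingular_vc C hQ
    · simp only [vcPoint_some, map_vcX C hC, map_vcY C hC]

variable {W₀ : WeierstrassCurve A}

theorem IsConjPoint.lift {σ : K →+* K} (hσ : InertiaLike A σ)
    {P Q : (genCurve A W₀).Point} (h : IsConjPoint σ P Q) {a b : A} (hP : IsLift P a b) :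
    ∃ a' b', IsLift Q a' b' ∧ (a' : K) = σ a ∧ (b' : K) = σ b ∧
      IsLocalRing.residue A a' = IsLocalRing.residue A a ∧
      IsLocalRing.residue A b' = IsLocalRing.residue A b := by
  rcases h with ⟨rfl, -⟩ | ⟨x, y, h₁, h₂, rfl, rfl⟩
  · exact (hP.not_inE1 trivial).elim
  · obtain ⟨h₀, hP⟩ := hP
    simp only [Point.some.injEq] at hP
    obtain ⟨a', ha, hra⟩ := hσ a
    obtain ⟨b', hb, hrb⟩ := hσ b
    have h₂' : (genCurve A W₀).Nonsingular (a' : K) (b' : K) := by
      rw [ha, hb, ← hP.1, ← hP.2]; exact h₂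
    exact ⟨a', b', ⟨h₂', by simp only [ha, hb, hP.1, hP.2]⟩, ha, hb, hra, hrb⟩

variable [DecidableEq K]

/-- Inertia fixes the torsion points (of order prime to `q`) with nonsingular reduction. -/
theorem eq_of_conj_mem_E0 {σ : K →+* K} (hσ : InertiaLike A σ) {P Q : (genCurve A W₀).Point}
    (h : IsConjPoint σ P Q) (hP : P ∈ E0 A W₀) {n : ℕ}
    (hn : (n : IsLocalRing.ResidueField A) ≠ 0) (hP0 : n • P = 0) (hQ0 : n • Q = 0) : Q = P := by
  rcases hP with hP | ⟨a, b, hl, hns⟩
  · have hP' : P = 0 := eq_zero_of_nsmul_eq_zero hP hn hP0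
    subst hP'
    rcases h with ⟨-, rfl⟩ | ⟨x, y, h₁, h₂, hP, -⟩
    · rfl
    · simp at hP
  · obtain ⟨a', b', hl', -, -, hra, hrb⟩ := h.lift hσ hl
    exact (eq_of_same_reduction hl hl' hns hra.symm hrb.symm hn hP0 hQ0).symm

end FLTAgent.EllLocal
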