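import Fermat.Agent.EllLocal.Component

/-!
# Inertia on the torsion of a node curve

`exists_zpow_of_torsion`: an odd torsion point outside `E0` has `v x ^ n` an integral power of
`v c`. Hence inertia moves such points by elements of `E0` (`sub_mem_E0_node`), and fixes
`p`-torsion when `v c` is the `p`-th power of the value of a fixed element (`eq_of_conj_node`).
-/

set_option autoImplicit false

namespace FLTAgent.EllLocal

open WeierstrassCurve WeierstrassCurve.Affine

variable {K : Type*} [Field K] [DecidableEq K] {A : ValuationSubring K} {c : A}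

/-- An odd-torsion point with singular reduction lies on a side component, and its valuation is a
fractional power of `v c`. -/
theorem exists_zpow_of_torsion (hc : IsLocalRing.residue A c = 0) (hc0 : (c : K) ≠ 0)
    {P : (nodeGen c).Point} (hP : P ∉ E0 A (nodeCurve c)) {n : ℕ} (hn : Odd n)
    (h0 : n • P = 0) :
    ∃ x y h, P = Point.some x y h ∧ A.valuation x < 1 ∧
      (IsPos A (c : K) x y ∨ IsNeg A (c : K) x y) ∧
      ∃ k : ℤ, A.valuation x ^ n = A.valuation (c : K) ^ k := by
  cases P with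
  | zero => exact (hP (E0 A _).zero_mem).elim
  | some x y h =>
  have hx := (notMem_E0_some hc h).mp hP
  have hr := comp_nsmul hc hc0 (Point.some x y h) n
  rw [h0, comp_of_mem_E0 hc (zero_mem _), one_mul, comp_some_of_lt h hx] at hr
  obtain ⟨k, hk⟩ := hr.inv
  rw [inv_inv] at hk
  refine ⟨x, y, h, rfl, hx, ?_⟩
  have hC : (0 : A.ValueGroup) < A.valuation (c : K) :=
    zero_lt_iff.mpr (by rwa [ne_eq, Valuation.zero_iff])
  rcases kinds hc0 hx (nodeGen_equation h.1) with hm | hm | hm
  · exfalso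
    rw [hm.gval_eq] at hk
    set g := A.valuation y
    have hg : g ^ 2 = A.valuation (c : K) := hm.2.2
    rw [← hg] at hk
    have hg1 : g < 1 := by
      by_contra hcon
      exact (valuation_c_lt_one hc).not_ge (hg ▸ one_le_pow₀ (not_lt.mp hcon))
    have hg0 : 0 < g := zero_lt_iff.mpr fun e => hC.ne (by rw [← hg, e, zero_pow two_ne_zero])
    rw [← zpow_natCast g n, ← zpow_natCast g 2, ← zpow_mul] at hk
    have := (zpow_right_strictAnti₀ hg0 hg1).injective hk
    obtain ⟨m, rfl⟩ := hn
    push_cast at this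
    omega
  · exact ⟨Or.inl hm, k, by rw [← hk, hm.gval_eq]⟩
  · refine ⟨Or.inr hm, -k, ?_⟩
    rw [zpow_neg, ← hk, hm.gval_eq, inv_pow, inv_inv]

omit [DecidableEq K] in
/-- The fixed element realising the valuation of a side-component torsion point. -/
theorem valuation_map_of_zpow {σ : K →+* K} (hσ : InertiaLike A σ) (hσc : σ (c : K) = c) {x : K}
    {n : ℕ} (hn : n ≠ 0) {k : ℤ} (hk : A.valuation x ^ n = A.valuation (c : K) ^ k) :
    A.valuation (σ x) = A.valuation x :=
  hσ.valuation_map_eq (e := (c : K) ^ k) (by rw [map_zpow₀, hσc]) hn (by rw [hk, map_zpow₀])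

omit [DecidableEq K] in
theorem IsPos.map {σ : K →+* K} (hσ : InertiaLike A σ) {x y : K} (h : IsPos A (c : K) x y)
    (hx : A.valuation (σ x) = A.valuation x) : IsPos A (c : K) (σ x) (σ y) := by
  have h0 : A.valuation x ≠ 0 := valuation_ne_zero_of_sq h.1
  have hy : A.valuation (y / x) = 1 := by rw [map_div₀, h.2.1, div_self h0]
  have hw : A.valuation ((y + x) / x) < 1 := by
    rw [map_div₀, div_lt_one₀ (zero_lt_iff.mpr h0)]; exact h.2.2
  have e1 := hσ.valuation_map_eq_one hy
  have e2 := hσ.valuation_map_lt_one hw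
  rw [map_div₀, map_div₀, hx, div_eq_one_iff_eq h0] at e1
  rw [map_div₀, map_div₀, hx, div_lt_one₀ (zero_lt_iff.mpr h0), map_add σ] at e2
  exact ⟨hx.symm ▸ h.1, e1.trans hx.symm, hx.symm ▸ e2⟩

omit [DecidableEq K] in
theorem IsNeg.map {σ : K →+* K} (hσ : InertiaLike A σ) {x y : K} (h : IsNeg A (c : K) x y)
    (hx : A.valuation (σ x) = A.valuation x) : IsNeg A (c : K) (σ x) (σ y) := by
  have h0 : A.valuation x ≠ 0 := valuation_ne_zero_of_sq h.1
  have hy : A.valuation ((y + x) / x) = 1 := by rw [map_div₀, h.2.1, div_self h0]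
  have hw : A.valuation (y / x) < 1 := by
    rw [map_div₀, div_lt_one₀ (zero_lt_iff.mpr h0)]; exact h.2.2
  have e1 := hσ.valuation_map_eq_one hy
  have e2 := hσ.valuation_map_lt_one hw
  rw [map_div₀, map_div₀, hx, div_eq_one_iff_eq h0, map_add σ] at e1
  rw [map_div₀, map_div₀, hx, div_lt_one₀ (zero_lt_iff.mpr h0)] at e2
  exact ⟨hx.symm ▸ h.1, e1.trans hx.symm, hx.symm ▸ e2⟩

omit [DecidableEq K] in
/-- A point conjugate to a singularly reducing point reduces singularly. -/
theorem IsConjPoint.eq_some {W : Affine K} {σ : K →+* K} {Q : W.Point} {x y : K}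
    {h : W.Nonsingular x y} (hc : IsConjPoint σ (Point.some x y h) Q) :
    ∃ h', Q = Point.some (σ x) (σ y) h' := by
  rcases hc with ⟨h0, -⟩ | ⟨x', y', h₁, h₂, e, rfl⟩
  · exact (Point.some_ne_zero h h0).elim
  · simp only [Point.some.injEq] at e
    obtain ⟨rfl, rfl⟩ := e
    exact ⟨h₂, rfl⟩

/-- Inertia is unipotent on odd torsion: `σ P - P ∈ E₀`. -/
theorem sub_mem_E0_node (hc : IsLocalRing.residue A c = 0) (hc0 : (c : K) ≠ 0) {σ : K →+* K}
    (hσ : InertiaLike A σ) (hσc : σ (c : K) = c) {P Q : (nodeGen c).Point}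
    (h : IsConjPoint σ P Q) {n : ℕ} (hn : Odd n) (h0 : n • P = 0) :
    Q - P ∈ E0 A (nodeCurve c) := by
  by_cases hP : P ∈ E0 A (nodeCurve c)
  · refine sub_mem ?_ hP
    rcases h with ⟨-, rfl⟩ | ⟨x, y, h₁, h₂, rfl, rfl⟩
    · exact zero_mem _
    · by_contra hQ
      rw [notMem_E0_some hc] at hQ
      rw [← not_not (a := _ ∈ _), notMem_E0_some hc, not_lt] at hP
      rcases hP.lt_or_eq with hlt | heq
      · exact hσ.notMem_map (fun hm => hlt.not_ge ((A.valuation_le_one_iff x).mpr hm))
          (A.mem_of_valuation_le_one _ hQ.le)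
      · exact hQ.ne (hσ.valuation_map_eq_one heq.symm)
  obtain ⟨x, y, h₁, rfl, hx, hkind, k, hk⟩ := exists_zpow_of_torsion hc hc0 hP hn h0
  obtain ⟨h₂, rfl⟩ := h.eq_some
  have hvx := valuation_map_of_zpow hσ hσc (Nat.ne_of_gt hn.pos) hk
  have hx' : A.valuation (σ x) < 1 := hvx ▸ hx
  by_contra hR
  have hr := comp_add hc hc0 (Point.some (σ x) (σ y) h₂ - Point.some x y h₁) (Point.some x y h₁)
  rw [sub_add_cancel, comp_some_of_lt h₁ hx, comp_some_of_lt h₂ hx'] at hr
  have hg : gval A (c : K) (σ x) (σ y) = gval A (c : K) x y := by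
    rcases hkind with hk' | hk'
    · rw [hk'.gval_eq, (hk'.map hσ hvx).gval_eq, hvx]
    · rw [hk'.gval_eq, (hk'.map hσ hvx).gval_eq, hvx]
  have hne := gval_ne_zero hc0 hx (nodeGen_equation h₁.1)
  rw [hg] at hr
  generalize hD : Point.some (σ x) (σ y) h₂ - Point.some x y h₁ = D at hR hr
  rw [mul_inv, mul_comm (comp D)⁻¹, ← mul_assoc, mul_inv_cancel₀ hne, one_mul] at hr
  cases D with
  | zero => exact hR (zero_mem _)
  | some a b hab =>
    have ha := (notMem_E0_some hc hab).mp hR
    rw [comp_some_of_lt hab ha] at hr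
    exact gval_not_rel hc0 (valuation_c_lt_one hc) ha (nodeGen_equation hab.1)
      (inv_inv (gval A (c : K) a b) ▸ hr.inv)

/-- Inertia fixes the `p`-torsion of a node curve when `v c` is the `p`-th power of the valuation of
a fixed element. -/
theorem eq_of_conj_node (hc : IsLocalRing.residue A c = 0) (hc0 : (c : K) ≠ 0) {σ : K →+* K}
    (hσ : InertiaLike A σ) {P Q : (nodeGen c).Point}
    (h : IsConjPoint σ P Q) {p : ℕ} (hp : Odd p) (hpA : (p : IsLocalRing.ResidueField A) ≠ 0)
    (hd : ∃ d : K, σ d = d ∧ A.valuation d ^ p = A.valuation (c : K))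
    (hP0 : p • P = 0) (hQ0 : p • Q = 0) : Q = P := by
  by_cases hP : P ∈ E0 A (nodeCurve c)
  · exact eq_of_conj_mem_E0 hσ h hP hpA hP0 hQ0
  obtain ⟨x, y, h₁, rfl, hx, hkind, k, hk⟩ := exists_zpow_of_torsion hc hc0 hP hp hP0
  obtain ⟨h₂, rfl⟩ := h.eq_some
  obtain ⟨d, hσd, hd⟩ := hd
  set e := d ^ k with he_def
  have hve : A.valuation x = A.valuation e := by
    refine (pow_left_inj₀ zero_le zero_le (Nat.ne_of_gt hp.pos)).mp ?_
    rw [hk, ← hd, he_def, map_zpow₀, ← zpow_natCast, ← zpow_natCast, ← zpow_mul, ← zpow_mul,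
      mul_comm]
  have hσe : σ e = e := by rw [he_def, map_zpow₀, hσd]
  have hx0 : A.valuation x ≠ 0 := valuation_ne_zero_of_sq (hkind.elim (·.1) (·.1))
  have he0 : e ≠ 0 := fun h0 => hx0 (by rw [hve, h0, Valuation.map_zero])
  have hdx : A.valuation (σ x - x) < A.valuation x :=
    hve ▸ hσ.valuation_sub_lt_of_fixed hσe he0 hve.le
  have hvx : A.valuation (σ x) = A.valuation x := Valuation.map_eq_of_sub_lt _ hdx
  have hnum : A.valuation (y + (σ y + σ x)) = A.valuation x := by
    rcases hkind with hp' | hn'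
    · have h' := hp'.map hσ hvx
      rw [Valuation.map_add_eq_of_lt_left, hp'.2.1]
      rw [hp'.2.1, ← hvx]; exact h'.2.2
    · have h' := hn'.map hσ hvx
      rw [Valuation.map_add_eq_of_lt_right, h'.2.1, hvx]
      rw [h'.2.1, hvx]; exact hn'.2.2
  have key : Point.some x y h₁ + -Point.some (σ x) (σ y) h₂ = 0 := by
    refine eq_zero_of_nsmul_eq_zero ?_ hpA
      (by rw [nsmul_add, neg_nsmul, hP0, hQ0, neg_zero, add_zero])
    rw [Point.neg_some]
    by_cases hxy : x = σ x ∧ y = (nodeGen c).negY (σ x) ((nodeGen c).negY (σ x) (σ y))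
    · rw [Point.add_of_Y_eq hxy.1 hxy.2]; exact zero_mem _
    rw [Point.add_some hxy]
    show _ ∉ A
    set l := (nodeGen c).slope x (σ x) y ((nodeGen c).negY (σ x) (σ y)) with hl_def
    intro hmem
    have hs : l * (x - σ x) = y + (σ y + σ x) := by
      rw [hl_def, slope_mul_sub h₁.1 ((equation_neg _ _).mpr h₂.1) hxy, nodeGen_negY]; ring
    have hl : A.valuation l ≤ 1 := by
      rw [A.valuation_le_one_iff]
      rw [← A.valuation_le_one_iff, addX_node] at hmem
      refine mem_of_quadratic A (e := 1) (f := l * (l + 1)) A.one_mem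
        (A.mem_of_valuation_le_one _ ?_) (by ring)
      have := A.valuation.map_add_le hmem
        (A.valuation.map_add_le hx.le (hvx ▸ hx.le : A.valuation (σ x) ≤ 1))
      rwa [show l * (l + 1) - x - σ x + (x + σ x) = l * (l + 1) by ring] at this
    have hlt : A.valuation (y + (σ y + σ x)) < A.valuation x := by
      rw [← hs, map_mul, Valuation.map_sub_swap]
      exact lt_of_le_of_lt (mul_le_of_le_one_left' hl) hdx
    exact hlt.ne hnum
  exact (add_neg_eq_zero.mp key).symm

end FLTAgent.EllLocal
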