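import Fermat.Agent.EllLocal.NormalForm

/-!
# The three kinds of singularly reducing points on a node curve

On `y (y + x) = x ^ 3 + c` a point reducing to the node is of kind `IsMid`, `IsPos` or `IsNeg`
(`kinds`); `gval` attaches to it an element of the value group, defined up to powers of `v c`
(`Rel`), and is never itself such a power (`gval_not_rel`). `triple_core` is the case analysis for
three collinear points.
-/

set_option autoImplicit false

namespace FLTAgent.EllLocal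

variable {K : Type*} [Field K] (A : ValuationSubring K) (c : K)

local notation "v" => A.valuation

/-- Middle component. -/
def IsMid (x y : K) : Prop := v x ≤ v y ∧ v (y + x) = v y ∧ v y ^ 2 = v c

/-- Positive side. -/
def IsPos (x y : K) : Prop := v c < v x ^ 2 ∧ v y = v x ∧ v (y + x) < v x

/-- Negative side. -/
def IsNeg (x y : K) : Prop := v c < v x ^ 2 ∧ v (y + x) = v x ∧ v y < v x

open Classical in
/-- Representative of the component of a singularly reducing point. -/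
noncomputable def gval (x y : K) : A.ValueGroup :=
  if v y ^ 2 = v c ∧ v (y + x) = v y then v y else if v (y + x) < v y then v x else (v x)⁻¹

/-- Being a power of `v c`. -/
def Rel (g : A.ValueGroup) : Prop := ∃ k : ℤ, g = v c ^ k

variable {A c}

theorem IsMid.gval_eq {x y : K} (h : IsMid A c x y) : gval A c x y = v y :=
  if_pos ⟨h.2.2, h.2.1⟩

theorem IsPos.gval_eq {x y : K} (h : IsPos A c x y) : gval A c x y = v x := by
  have h' : v (y + x) < v y := h.2.1.symm ▸ h.2.2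
  rw [gval, if_neg fun hc => h'.ne hc.2, if_pos h']

theorem IsNeg.gval_eq {x y : K} (h : IsNeg A c x y) : gval A c x y = (v x)⁻¹ := by
  have h' : v y < v (y + x) := h.2.1.symm ▸ h.2.2
  rw [gval, if_neg fun hc => h'.ne' hc.2, if_neg h'.not_gt]

theorem IsMid.neg {x y : K} (h : IsMid A c x y) : IsMid A c x (-(y + x)) := by
  refine ⟨?_, ?_, ?_⟩ <;> simp only [neg_add_rev, Valuation.map_neg, neg_add_cancel_comm]
  · rw [← neg_add_rev, Valuation.map_neg, h.2.1]; exact h.1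
  · rw [← neg_add_rev, Valuation.map_neg, h.2.1]
  · rw [← neg_add_rev, Valuation.map_neg, h.2.1]; exact h.2.2

theorem IsPos.neg {x y : K} (h : IsPos A c x y) : IsNeg A c x (-(y + x)) :=
  ⟨h.1, by rw [show -(y + x) + x = -y by ring, Valuation.map_neg]; exact h.2.1,
    by rw [Valuation.map_neg]; exact h.2.2⟩

theorem IsNeg.neg {x y : K} (h : IsNeg A c x y) : IsPos A c x (-(y + x)) :=
  ⟨h.1, by rw [Valuation.map_neg]; exact h.2.1,
    by rw [show -(y + x) + x = -y by ring, Valuation.map_neg]; exact h.2.2⟩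

theorem Rel.one : Rel A c 1 := ⟨0, (zpow_zero _).symm⟩

theorem Rel.self : Rel A c (v c) := ⟨1, (zpow_one _).symm⟩

theorem Rel.inv {g : A.ValueGroup} (h : Rel A c g) : Rel A c g⁻¹ := by
  obtain ⟨k, rfl⟩ := h
  exact ⟨-k, (zpow_neg _ _).symm⟩

theorem Rel.mul (hc : c ≠ 0) {g g' : A.ValueGroup} (h : Rel A c g) (h' : Rel A c g') :
    Rel A c (g * g') := by
  obtain ⟨k, rfl⟩ := h
  obtain ⟨k', rfl⟩ := h'
  exact ⟨k + k', (zpow_add₀ (by rwa [ne_eq, Valuation.zero_iff]) _ _).symm⟩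

theorem valuation_ne_zero_of_sq {x : K} (h : v c < v x ^ 2) : v x ≠ 0 := fun h0 => by
  simp [h0] at h

/-- Trichotomy. -/
theorem kinds {x y : K} (hc : c ≠ 0) (hx : v x < 1) (h : y * (y + x) = x ^ 3 + c) :
    IsMid A c x y ∨ IsPos A c x y ∨ IsNeg A c x y := by
  have hprod : v y * v (y + x) = v (x ^ 3 + c) := by rw [← map_mul, h]
  have hxle : v x ≤ max (v y) (v (y + x)) := by
    have := A.valuation.map_sub (y + x) y
    rwa [add_sub_cancel_left, max_comm] at this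
  rcases lt_or_ge (v c) (v x ^ 2) with hlt | hge
  · have h3 : v (x ^ 3 + c) < v x ^ 2 := by
      refine A.valuation.map_add_lt ?_ hlt
      rw [map_pow]
      exact pow_lt_pow_right_of_lt_one₀ (zero_lt_iff.mpr (valuation_ne_zero_of_sq hlt)) hx
        (by norm_num)
    rw [← hprod] at h3
    rcases lt_trichotomy (v y) (v (y + x)) with hy | hy | hy
    · refine Or.inr (Or.inr ⟨hlt, ?_, ?_⟩)
      · conv_rhs => rw [← add_sub_cancel_left y x, Valuation.map_sub_eq_of_lt_left _ hy]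
      · rw [← add_sub_cancel_left y x, Valuation.map_sub_eq_of_lt_left _ hy]; exact hy
    · exfalso
      rw [← hy, max_self] at hxle
      rw [← hy, pow_two] at h3
      exact h3.not_ge (mul_le_mul' hxle hxle)
    · refine Or.inr (Or.inl ⟨hlt, ?_, ?_⟩)
      · conv_rhs => rw [← add_sub_cancel_left y x, Valuation.map_sub_eq_of_lt_right _ hy]
      · rw [← add_sub_cancel_left y x, Valuation.map_sub_eq_of_lt_right _ hy, add_sub_cancel_left]
        exact hy
  · have hvc : (0 : A.ValueGroup) < v c := zero_lt_iff.mpr (by rwa [ne_eq, Valuation.zero_iff])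
    have h3 : v (x ^ 3) < v c := by
      rcases eq_or_ne (v x) 0 with h0 | h0
      · rw [map_pow, h0, zero_pow three_ne_zero]; exact hvc
      · rw [map_pow]
        exact lt_of_lt_of_le
          (pow_lt_pow_right_of_lt_one₀ (zero_lt_iff.mpr h0) hx (by norm_num)) hge
    rw [Valuation.map_add_eq_of_lt_right _ h3] at hprod
    have heq : v (y + x) = v y := by
      by_contra hne
      have hx' : v x = max (v (y + x)) (v y) := by
        rcases lt_or_gt_of_ne hne with hy | hy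
        · rw [max_eq_right hy.le, ← Valuation.map_sub_eq_of_lt_right _ hy, add_sub_cancel_left]
        · rw [max_eq_left hy.le, ← Valuation.map_sub_eq_of_lt_left _ hy, add_sub_cancel_left]
      have : v c < v x ^ 2 := by
        rw [← hprod, hx', pow_two]
        rcases lt_or_gt_of_ne hne with hy | hy
        · rw [max_eq_right hy.le]
          exact mul_lt_mul_of_pos_left hy (lt_of_le_of_lt zero_le hy)
        · rw [max_eq_left hy.le]
          exact mul_lt_mul_of_pos_right hy (lt_of_le_of_lt zero_le hy)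
      exact this.not_ge hge
    rw [heq, max_self] at hxle
    rw [heq, ← pow_two] at hprod
    exact Or.inl ⟨hxle, heq, hprod⟩

theorem gval_ne_zero {x y : K} (hc : c ≠ 0) (hx : v x < 1) (h : y * (y + x) = x ^ 3 + c) :
    gval A c x y ≠ 0 := by
  rcases kinds hc hx h with h | h | h
  · rw [h.gval_eq]
    intro h0
    have := h.2.2
    rw [h0, zero_pow two_ne_zero] at this
    exact hc ((Valuation.zero_iff _).mp this.symm)
  · rw [h.gval_eq]; exact valuation_ne_zero_of_sq h.1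
  · rw [h.gval_eq]; exact inv_ne_zero (valuation_ne_zero_of_sq h.1)

theorem gval_mul_neg {x y : K} (hc : c ≠ 0) (hx : v x < 1) (h : y * (y + x) = x ^ 3 + c) :
    Rel A c (gval A c x y * gval A c x (-(y + x))) := by
  rcases kinds hc hx h with h | h | h
  · rw [h.gval_eq, h.neg.gval_eq, Valuation.map_neg, h.2.1, ← pow_two, h.2.2]; exact Rel.self
  · rw [h.gval_eq, h.neg.gval_eq, mul_inv_cancel₀ (valuation_ne_zero_of_sq h.1)]; exact Rel.one
  · rw [h.gval_eq, h.neg.gval_eq, inv_mul_cancel₀ (valuation_ne_zero_of_sq h.1)]; exact Rel.one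

/-- A non-trivial power of `v c` is not strictly between `v c` and `1`. -/
theorem not_rel_of_between (hc : c ≠ 0) {g : A.ValueGroup} (h₁ : v c < g) (h₂ : g < 1) :
    ¬Rel A c g := by
  rintro ⟨k, rfl⟩
  have hc0 : (0 : A.ValueGroup) < v c := zero_lt_iff.mpr (by rwa [ne_eq, Valuation.zero_iff])
  have hc1 : v c < 1 := h₁.trans h₂
  have hk1 : 0 < k := by
    by_contra hk
    rw [not_lt] at hk
    exact h₂.not_ge (one_le_zpow_of_nonpos₀ hc0 hc1.le hk)
  have : v c ^ k ≤ v c ^ (1 : ℤ) := zpow_le_zpow_right_of_le_one₀ hc0 hc1.le (by omega)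
  rw [zpow_one] at this
  exact h₁.not_ge this

theorem gval_not_rel {x y : K} (hc : c ≠ 0) (hc1 : v c < 1) (hx : v x < 1)
    (h : y * (y + x) = x ^ 3 + c) : ¬Rel A c (gval A c x y) := by
  have hc0 : (0 : A.ValueGroup) < v c := zero_lt_iff.mpr (by rwa [ne_eq, Valuation.zero_iff])
  have key : v c < v x ^ 2 → ¬Rel A c (v x) := fun h =>
    not_rel_of_between hc (h.trans_le (pow_le_of_le_one zero_le hx.le two_ne_zero)) hx
  rcases kinds hc hx h with h | h | h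
  · rw [h.gval_eq]
    have hy1 : v y < 1 := by
      by_contra hy
      exact hc1.not_ge (h.2.2 ▸ one_le_pow₀ (not_lt.mp hy))
    refine not_rel_of_between hc ?_ hy1
    rw [← h.2.2]
    refine pow_lt_self_of_lt_one₀ (zero_lt_iff.mpr ?_) hy1 one_lt_two
    intro h0
    have := h.2.2
    rw [h0, zero_pow two_ne_zero] at this
    exact hc0.ne this
  · rw [h.gval_eq]; exact key h.1
  · rw [h.gval_eq]
    intro hr
    exact key h.1 (by simpa using hr.inv)

/-- The order-theoretic core of the additivity of the component map. -/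
theorem triple_core {C n v₁ v₂ v₃ g₁ g₂ g₃ : A.ValueGroup}
    (hC : 0 < C) (hv₁ : v₁ < 1) (hv₂ : v₂ < 1) (hv₃ : v₃ < 1)
    (k₁ : (v₁ ≤ n ∧ n ^ 2 = C ∧ g₁ = n) ∨
      (C < v₁ ^ 2 ∧ ((n = v₁ ∧ g₁ = v₁) ∨ (n < v₁ ∧ g₁ = v₁⁻¹))))
    (k₂ : (v₂ ≤ n ∧ n ^ 2 = C ∧ g₂ = n) ∨
      (C < v₂ ^ 2 ∧ ((n = v₂ ∧ g₂ = v₂) ∨ (n < v₂ ∧ g₂ = v₂⁻¹))))
    (k₃ : (v₃ ≤ n ∧ n ^ 2 = C ∧ g₃ = n) ∨
      (C < v₃ ^ 2 ∧ ((n = v₃ ∧ g₃ = v₃) ∨ (n < v₃ ∧ g₃ = v₃⁻¹))))
    (hmax : n ≤ v₁ * v₂ ∨ n ≤ v₁ * v₃ ∨ n ≤ v₂ * v₃)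
    (hd₁₂ : v₁ * v₃ < v₁ * v₂ → v₂ * v₃ < v₁ * v₂ → n = v₁ * v₂)
    (hd₁₃ : v₁ * v₂ < v₁ * v₃ → v₂ * v₃ < v₁ * v₃ → n = v₁ * v₃)
    (hd₂₃ : v₁ * v₂ < v₂ * v₃ → v₁ * v₃ < v₂ * v₃ → n = v₂ * v₃)
    (he : n ^ 2 < v₁ * v₂ * v₃ → v₁ * v₂ * v₃ = C) :
    g₁ * g₂ * g₃ = 1 ∨ g₁ * g₂ * g₃ = C⁻¹ := by
  -- one of the valuations is `≤ n`
  have aux : ∀ a b m ga gb gm : A.ValueGroup, a < 1 → b < 1 →
      ((a ≤ n ∧ n ^ 2 = C ∧ ga = n) ∨ (C < a ^ 2 ∧ ((n = a ∧ ga = a) ∨ (n < a ∧ ga = a⁻¹)))) →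
      ((b ≤ n ∧ n ^ 2 = C ∧ gb = n) ∨ (C < b ^ 2 ∧ ((n = b ∧ gb = b) ∨ (n < b ∧ gb = b⁻¹)))) →
      0 < n → m ≤ n → gm = n → (n ≤ a * b ∨ n ≤ a * m ∨ n ≤ b * m) →
      (a * m < a * b → b * m < a * b → n = a * b) → ga * gb * gm = 1 := by
    intro a b m ga gb gm ha hb ka kb hn hm hg hmx hd
    have h1 : a * m < n :=
      lt_of_le_of_lt (mul_le_mul_right hm a) (mul_lt_of_lt_one_left hn ha)
    have h2 : b * m < n :=
      lt_of_le_of_lt (mul_le_mul_right hm b) (mul_lt_of_lt_one_left hn hb)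
    have hab : n ≤ a * b := hmx.resolve_right (by
      rintro (h | h)
      exacts [h.not_gt h1, h.not_gt h2])
    have heq : n = a * b := hd (h1.trans_le hab) (h2.trans_le hab)
    have ha0 : 0 < a := zero_lt_iff.mpr fun h0 => hn.ne' (by rw [heq, h0, zero_mul])
    have hb0 : 0 < b := zero_lt_iff.mpr fun h0 => hn.ne' (by rw [heq, h0, mul_zero])
    have hna : n < a := heq ▸ mul_lt_of_lt_one_right ha0 hb
    have hnb : n < b := heq ▸ mul_lt_of_lt_one_left hb0 ha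
    have hga : ga = a⁻¹ := by
      rcases ka with h | ⟨-, h | h⟩
      exacts [absurd h.1 hna.not_ge, absurd h.1 hna.ne, h.2]
    have hgb : gb = b⁻¹ := by
      rcases kb with h | ⟨-, h | h⟩
      exacts [absurd h.1 hnb.not_ge, absurd h.1 hnb.ne, h.2]
    rw [hga, hgb, hg, ← mul_inv, heq, inv_mul_cancel₀ (mul_ne_zero ha0.ne' hb0.ne')]
  have pos : ∀ {w g : A.ValueGroup}, ((w ≤ n ∧ n ^ 2 = C ∧ g = n) ∨
      (C < w ^ 2 ∧ n = w ∧ g = w)) → 0 < n ∧ w ≤ n ∧ g = n := by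
    rintro w g (⟨h1, h2, h3⟩ | ⟨h1, h2, h3⟩)
    · exact ⟨zero_lt_iff.mpr fun h0 => hC.ne (by rw [← h2, h0, zero_pow two_ne_zero]), h1, h3⟩
    · refine ⟨zero_lt_iff.mpr fun h0 => ?_, h2.symm.le, h3.trans h2.symm⟩
      rw [← h2, h0, zero_pow two_ne_zero] at h1
      exact (hC.trans h1).false
  have split : ∀ {w g : A.ValueGroup}, ((w ≤ n ∧ n ^ 2 = C ∧ g = n) ∨
      (C < w ^ 2 ∧ ((n = w ∧ g = w) ∨ (n < w ∧ g = w⁻¹)))) →
      (0 < n ∧ w ≤ n ∧ g = n) ∨ (n < w ∧ g = w⁻¹) := by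
    rintro w g (h | ⟨h1, h | h⟩)
    exacts [Or.inl (pos (Or.inl h)), Or.inl (pos (Or.inr ⟨h1, h⟩)), Or.inr h]
  rcases split k₃ with ⟨hn, hm, hg⟩ | ⟨h3, hg3⟩
  · exact Or.inl (aux v₁ v₂ v₃ g₁ g₂ g₃ hv₁ hv₂ k₁ k₂ hn hm hg hmax hd₁₂)
  rcases split k₂ with ⟨hn, hm, hg⟩ | ⟨h2, hg2⟩
  · left
    rw [mul_right_comm]
    refine aux v₁ v₃ v₂ g₁ g₃ g₂ hv₁ hv₃ k₁ k₃ hn hm hg ?_ ?_
    · rcases hmax with h | h | h
      exacts [Or.inr (Or.inl h), Or.inl h, Or.inr (Or.inr (by rwa [mul_comm]))]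
    · intro e1 e2; exact hd₁₃ e1 (by rwa [mul_comm v₂ v₃])
  rcases split k₁ with ⟨hn, hm, hg⟩ | ⟨h1, hg1⟩
  · left
    rw [mul_assoc, mul_comm]
    refine aux v₂ v₃ v₁ g₂ g₃ g₁ hv₂ hv₃ k₂ k₃ hn hm hg ?_ ?_
    · rcases hmax with h | h | h
      exacts [Or.inr (Or.inl (by rwa [mul_comm])), Or.inr (Or.inr (by rwa [mul_comm])), Or.inl h]
    · intro e1 e2
      exact hd₂₃ (by rwa [mul_comm v₁ v₂]) (by rwa [mul_comm v₁ v₃])
  right
  have hlt : n ^ 2 < v₁ * v₂ * v₃ := by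
    have p1 : 0 < v₁ := lt_of_le_of_lt zero_le h1
    have p2 : 0 < v₂ := lt_of_le_of_lt zero_le h2
    have p3 : 0 < v₃ := lt_of_le_of_lt zero_le h3
    rcases hmax with h | h | h
    · rw [pow_two]
      exact lt_of_le_of_lt (mul_le_mul_left h n) (mul_lt_mul_of_pos_left h3 (mul_pos p1 p2))
    · rw [pow_two, mul_right_comm]
      exact lt_of_le_of_lt (mul_le_mul_left h n) (mul_lt_mul_of_pos_left h2 (mul_pos p1 p3))
    · rw [pow_two, mul_assoc, mul_comm v₁]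
      exact lt_of_le_of_lt (mul_le_mul_left h n) (mul_lt_mul_of_pos_left h1 (mul_pos p2 p3))
  rw [hg1, hg2, hg3, ← mul_inv, ← mul_inv, he hlt]

end FLTAgent.EllLocal
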