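import Fermat.Agent.EllLocal.Inertia
import Mathlib.FieldTheory.IsAlgClosed.Basic

/-!
# Normal form of a multiplicative model

`exists_node_form`: over an algebraically closed field of characteristic zero, a model with
multiplicative reduction becomes a node curve `y (y + x) = x ^ 3 + c` (`nodeCurve`) with
`v c = v Δ` by an integral change of variables which, with `c`, is fixed by every inertia-like
endomorphism fixing the model.
-/

set_option autoImplicit false

namespace FLTAgent.EllLocal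

open WeierstrassCurve WeierstrassCurve.Affine

/-- The curve `y² + x y = x³ + c`. -/
def nodeCurve {R : Type*} [CommRing R] (c : R) : WeierstrassCurve R := ⟨1, 0, 0, 0, c⟩

theorem map_nodeCurve {R S : Type*} [CommRing R] [CommRing S] (f : R →+* S) (c : R) :
    (nodeCurve c).map f = nodeCurve (f c) := by
  ext <;> simp [nodeCurve]

theorem nodeCurve_c₆ {R : Type*} [CommRing R] (c : R) :
    (nodeCurve c).c₆ = -(1 + 864 * c) := by
  simp only [c₆, b₂, b₄, b₆, nodeCurve]; ring

theorem nodeCurve_Δ {R : Type*} [CommRing R] (c : R) :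
    (nodeCurve c).Δ = -(c * (1 + 432 * c)) := by
  simp only [Δ, b₂, b₄, b₆, b₈, nodeCurve]; ring

variable {K : Type*} [Field K]

/-- The change of variables to the node form attached to a fourth root `u` of `c₄`. -/
noncomputable def nodeChange (W : WeierstrassCurve K) (u : K) (hu : u ≠ 0) : VariableChange K :=
  ⟨Units.mk0 u hu, (u ^ 2 - W.b₂) / 12, (u - W.a₁) / 2,
    -(W.a₃ + (u ^ 2 - W.b₂) / 12 * W.a₁) / 2⟩

theorem nodeChange_smul [CharZero K] (W : WeierstrassCurve K) {u : K} (hu : u ≠ 0)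
    (h4 : u ^ 4 = W.c₄) :
    nodeChange W u hu • W = nodeCurve (nodeChange W u hu • W).a₆ := by
  have h1 : (nodeChange W u hu • W).a₁ = 1 := by
    simp only [nodeChange, variableChange_def, Units.val_inv_eq_inv_val, Units.val_mk0]
    field_simp; ring
  have h3 : (nodeChange W u hu • W).a₃ = 0 := by
    simp only [nodeChange, variableChange_def, Units.val_inv_eq_inv_val, Units.val_mk0]
    field_simp; ring
  have hb2 : (nodeChange W u hu • W).b₂ = 1 := by
    rw [variableChange_b₂]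
    simp only [nodeChange, Units.val_inv_eq_inv_val, Units.val_mk0]
    field_simp; ring
  have hc4 : (nodeChange W u hu • W).c₄ = 1 := by
    rw [variableChange_c₄, ← h4]
    simp only [nodeChange, Units.val_inv_eq_inv_val, Units.val_mk0]
    field_simp
  generalize nodeChange W u hu • W = W' at h1 h3 hb2 hc4
  simp only [c₄, hb2, b₄, h1, h3] at hc4
  simp only [b₂, h1] at hb2
  have h2 : W'.a₂ = 0 := by linear_combination hb2 / 4
  have h4' : W'.a₄ = 0 := by linear_combination -hc4 / 48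
  ext <;> simp [nodeCurve, h1, h2, h3, h4']

theorem valuation_le_one_of_monic_quadratic {A : ValuationSubring K} {s e f : K}
    (he : A.valuation e ≤ 1) (hf : A.valuation f ≤ 1) (h : s ^ 2 + e * s = f) :
    A.valuation s ≤ 1 := by
  rw [A.valuation_le_one_iff] at he hf ⊢
  exact mem_of_quadratic A he hf h

variable [CharZero K] [IsAlgClosed K] {A : ValuationSubring K}

/-- Normal form of a multiplicative model. -/
theorem exists_node_form (W₀ : WeierstrassCurve A)
    (hc₄ : IsLocalRing.residue A W₀.c₄ ≠ 0) (hΔ : IsLocalRing.residue A W₀.Δ = 0)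
    (hΔ0 : W₀.Δ ≠ 0) :
    ∃ (C : VariableChange K) (c : A), C • genCurve A W₀ = genCurve A (nodeCurve c) ∧
      IsLocalRing.residue A c = 0 ∧ (c : K) ≠ 0 ∧
      A.valuation (c : K) = A.valuation (W₀.Δ : K) ∧
      A.valuation (C.u : K) = 1 ∧ C.r ∈ A ∧ C.s ∈ A ∧ C.t ∈ A ∧
      ∀ σ : K →+* K, InertiaLike A σ → (genCurve A W₀).map σ = genCurve A W₀ →
        C.map σ = C ∧ σ (c : K) = c := by
  set W : WeierstrassCurve K := genCurve A W₀ with hWdef
  set v := A.valuation with hvdef
  have hΔv : v W.Δ < 1 := by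
    rw [hWdef, map_Δ]; exact valuation_lt_of_residue_eq_zero A hΔ
  have hΔne : W.Δ ≠ 0 := by
    rw [hWdef, map_Δ]; exact fun h => hΔ0 (Subtype.ext h)
  have hc4v : v W.c₄ = 1 := by
    rw [hWdef, map_c₄]
    exact (A.valuation_eq_one_iff _).mp (isUnit_of_residue_ne_zero A hc₄)
  have hc4 : W.c₄ ≠ 0 := fun h => by simp [h] at hc4v
  obtain ⟨u₀, hu₀⟩ := IsAlgClosed.exists_pow_nat_eq W.c₄ four_pos
  obtain ⟨i, hi⟩ := IsAlgClosed.exists_pow_nat_eq (-1 : K) two_pos
  -- the two candidates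
  have key : ∀ u : K, u ^ 4 = W.c₄ → ∃ c : K, ∃ hu : u ≠ 0,
      nodeChange W u hu • W = nodeCurve c ∧
      W.c₆ / u ^ 6 = -(1 + 864 * c) ∧ W.Δ / u ^ 12 = -(c * (1 + 432 * c)) := by
    intro u h4
    have hu : u ≠ 0 := by
      rintro rfl; exact hc4 (by rw [← h4, zero_pow four_ne_zero])
    refine ⟨_, hu, nodeChange_smul W hu h4, ?_, ?_⟩
    · rw [← nodeCurve_c₆, ← nodeChange_smul W hu h4, variableChange_c₆]
      simp only [nodeChange, Units.val_inv_eq_inv_val, Units.val_mk0, inv_pow]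
      rw [div_eq_inv_mul]
    · rw [← nodeCurve_Δ, ← nodeChange_smul W hu h4, variableChange_Δ]
      simp only [nodeChange, Units.val_inv_eq_inv_val, Units.val_mk0, inv_pow]
      rw [div_eq_inv_mul]
  have key2 : ∀ u u' : K, u ^ 4 = W.c₄ → u' ^ 2 = -u ^ 2 → ∀ c c' : K,
      W.c₆ / u ^ 6 = -(1 + 864 * c) → W.c₆ / u' ^ 6 = -(1 + 864 * c') →
      (432 : K) * (c + c') = -1 := by
    intro u u' _ hu' c c' h h'
    rw [show u' ^ 6 = -(u ^ 6) by rw [pow_mul u' 2 3, hu']; ring, div_neg, h] at h'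
    linear_combination h' / 2
  have h432 : v (432 : K) ≤ 1 := by
    exact_mod_cast A.valuation_le_one ((432 : ℕ) : A)
  -- choose the small root
  obtain ⟨u, hu4, c, hu, hsm, hc6, hcΔ, hcv⟩ : ∃ u : K, u ^ 4 = W.c₄ ∧ ∃ c : K, ∃ hu : u ≠ 0,
      nodeChange W u hu • W = nodeCurve c ∧ W.c₆ / u ^ 6 = -(1 + 864 * c) ∧
      W.Δ / u ^ 12 = -(c * (1 + 432 * c)) ∧ v c < 1 := by
    have hiu : (i * u₀) ^ 4 = W.c₄ := by
      rw [mul_pow, hu₀, pow_mul i 2 2, hi]; ring
    obtain ⟨c, hu, hsm, hc6, hcΔ⟩ := key u₀ hu₀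
    obtain ⟨c', hu', hsm', hc6', hcΔ'⟩ := key (i * u₀) hiu
    rcases lt_or_ge (v c) 1 with h | h
    · exact ⟨u₀, hu₀, c, hu, hsm, hc6, hcΔ, h⟩
    rcases lt_or_ge (v c') 1 with h' | h'
    · exact ⟨i * u₀, hiu, c', hu', hsm', hc6', hcΔ', h'⟩
    exfalso
    have hsum := key2 u₀ (i * u₀) hu₀ (by rw [mul_pow, hi]; ring) c c' hc6 hc6'
    have hu1 : v u₀ = 1 := by
      have : v u₀ ^ 4 = 1 := by rw [← map_pow, hu₀, hc4v]
      exact (pow_left_inj₀ zero_le zero_le four_ne_zero).mp (this.trans (one_pow 4).symm)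
    have hprod : v (432 : K) * v c * v c' < 1 := by
      rw [← map_mul, ← map_mul, show (432 : K) * c * c' = W.Δ / u₀ ^ 12 by
        linear_combination (-hcΔ) + c * hsum]
      rw [map_div₀, map_pow, hu1, one_pow, div_one]; exact hΔv
    have hmax : 1 ≤ v (432 : K) * v c ∨ 1 ≤ v (432 : K) * v c' := by
      by_contra hc
      simp only [not_or, not_le, ← map_mul] at hc
      have := v.map_add_lt hc.1 hc.2
      rw [← mul_add, hsum, Valuation.map_neg, map_one] at this
      exact lt_irrefl _ this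
    rcases hmax with hm | hm
    · exact absurd hprod (not_lt.mpr (one_le_mul hm h'))
    · rw [mul_right_comm] at hprod
      exact absurd hprod (not_lt.mpr (one_le_mul hm h))
  set C := nodeChange W u hu with hC
  have hvu : v u = 1 :=
    (pow_left_inj₀ zero_le zero_le four_ne_zero).mp (by rw [← map_pow, hu4, hc4v, one_pow])
  have ha : ∀ z : A, v (z : K) ≤ 1 := A.valuation_le_one
  have hnat : ∀ n : ℕ, v (n : K) ≤ 1 := fun n => by exact_mod_cast ha (n : A)
  -- integrality
  have hr : v C.r ≤ 1 := by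
    by_contra hr
    rw [not_le] at hr
    have e6 := congrArg WeierstrassCurve.b₆ hsm
    have e8 := congrArg WeierstrassCurve.b₈ hsm
    rw [variableChange_b₆] at e6
    rw [variableChange_b₈] at e8
    simp only [hC, nodeChange, Units.val_inv_eq_inv_val, Units.val_mk0] at e6 e8
    have f6 : (nodeCurve c).b₆ = 4 * c := by simp [b₆, nodeCurve]
    have f8 : (nodeCurve c).b₈ = c := by simp [b₈, nodeCurve]
    rw [f6] at e6
    rw [f8] at e8
    set r := C.r with hrdef
    have er : (u ^ 2 - W.b₂) / 12 = r := rfl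
    rw [er] at e6 e8
    field_simp at e6 e8
    have g6 : (4 : K) * r ^ 3 = 4 * c * u ^ 6 - (W.b₆ + 2 * r * W.b₄ + r ^ 2 * W.b₂) := by
      linear_combination e6
    have g8 : (3 : K) * r ^ 4 = c * u ^ 8 -
        (W.b₈ + 3 * r * W.b₆ + 3 * r ^ 2 * W.b₄ + r ^ 3 * W.b₂) := by
      linear_combination e8
    have hb : v W.b₂ ≤ 1 ∧ v W.b₄ ≤ 1 ∧ v W.b₆ ≤ 1 ∧ v W.b₈ ≤ 1 := by
      simp only [hWdef, map_b₂, map_b₄, map_b₆, map_b₈]
      exact ⟨ha _, ha _, ha _, ha _⟩
    have hpow : ∀ {m n : ℕ} {z : K}, v z ≤ 1 → m ≤ n → v (z * r ^ m) ≤ v r ^ n := by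
      intro m n z hz hmn
      rw [map_mul, map_pow]
      exact (mul_le_of_le_one_left' hz).trans (pow_le_pow_right₀ hr.le hmn)
    have h2 : v (2 : K) ≤ 1 := by exact_mod_cast hnat 2
    have h3 : v (3 : K) ≤ 1 := by exact_mod_cast hnat 3
    have h4 : v (4 : K) ≤ 1 := by exact_mod_cast hnat 4
    have l6 : v ((4 : K) * r ^ 3) ≤ v r ^ 2 := by
      rw [g6]
      refine v.map_sub_le ?_ (v.map_add_le (v.map_add_le ?_ ?_) ?_)
      · have := hpow (m := 0) (n := 2) (z := 4 * c * u ^ 6)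
          (by rw [map_mul, map_mul, map_pow, hvu, one_pow, mul_one]; exact mul_le_one' h4 hcv.le)
          (by norm_num)
        rwa [pow_zero, mul_one] at this
      · simpa using hpow (m := 0) (n := 2) hb.2.2.1 (by norm_num)
      · rw [show 2 * r * W.b₄ = 2 * W.b₄ * r ^ 1 by ring]
        exact hpow (by rw [map_mul]; exact mul_le_one' h2 hb.2.1) (by norm_num)
      · rw [mul_comm]; exact hpow hb.1 le_rfl
    have l8 : v ((3 : K) * r ^ 4) ≤ v r ^ 3 := by
      rw [g8]
      refine v.map_sub_le ?_ (v.map_add_le (v.map_add_le (v.map_add_le ?_ ?_) ?_) ?_)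
      · have := hpow (m := 0) (n := 3) (z := c * u ^ 8)
          (by rw [map_mul, map_pow, hvu, one_pow, mul_one]; exact hcv.le) (by norm_num)
        rwa [pow_zero, mul_one] at this
      · simpa using hpow (m := 0) (n := 3) hb.2.2.2 (by norm_num)
      · rw [show 3 * r * W.b₆ = 3 * W.b₆ * r ^ 1 by ring]
        exact hpow (by rw [map_mul]; exact mul_le_one' h3 hb.2.2.1) (by norm_num)
      · rw [show 3 * r ^ 2 * W.b₄ = 3 * W.b₄ * r ^ 2 by ring]
        exact hpow (by rw [map_mul]; exact mul_le_one' h3 hb.2.1) (by norm_num)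
      · rw [mul_comm]; exact hpow hb.1 le_rfl
    have hr0 : (0 : A.ValueGroup) < v r := zero_lt_one.trans hr
    have k6 : v (4 : K) * v r ≤ 1 := by
      rw [map_mul, map_pow, pow_succ', ← mul_assoc] at l6
      exact le_of_mul_le_mul_right (by rwa [one_mul]) (pow_pos hr0 2)
    have k8 : v (3 : K) * v r ≤ 1 := by
      rw [map_mul, map_pow, pow_succ', ← mul_assoc] at l8
      exact le_of_mul_le_mul_right (by rwa [one_mul]) (pow_pos hr0 3)
    have k : v (((4 : K) - 3) * r) ≤ 1 := by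
      rw [sub_mul]; exact v.map_sub_le (by rwa [map_mul]) (by rwa [map_mul])
    norm_num at k
    exact absurd k (not_le.mpr hr)
  have hs : v C.s ≤ 1 := by
    have e2 := congrArg WeierstrassCurve.a₂ hsm
    rw [variableChange_a₂] at e2
    simp only [nodeCurve, mul_eq_zero, pow_eq_zero_iff, ne_eq, OfNat.ofNat_ne_zero,
      not_false_eq_true, Units.ne_zero, false_or] at e2
    refine valuation_le_one_of_monic_quadratic (e := W.a₁) (f := W.a₂ + 3 * C.r) ?_ ?_ ?_
    · exact ha W₀.a₁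
    · refine v.map_add_le (ha W₀.a₂) ?_
      rw [map_mul]; exact mul_le_one' (by exact_mod_cast hnat 3) hr
    · linear_combination -e2
  have ht : v C.t ≤ 1 := by
    have e6 := congrArg WeierstrassCurve.a₆ hsm
    rw [variableChange_a₆] at e6
    simp only [hC, nodeChange, Units.val_inv_eq_inv_val, Units.val_mk0, nodeCurve] at e6
    have er : (u ^ 2 - W.b₂) / 12 = C.r := rfl
    have et : -(W.a₃ + C.r * W.a₁) / 2 = C.t := rfl
    rw [er, et] at e6
    field_simp at e6
    refine valuation_le_one_of_monic_quadratic (e := W.a₃ + C.r * W.a₁)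
      (f := W.a₆ + C.r * W.a₄ + C.r ^ 2 * W.a₂ + C.r ^ 3 - u ^ 6 * c) ?_ ?_ ?_
    · refine v.map_add_le (ha W₀.a₃) ?_
      rw [map_mul]; exact mul_le_one' hr (ha W₀.a₁)
    · refine v.map_sub_le (v.map_add_le (v.map_add_le (v.map_add_le (ha W₀.a₆) ?_) ?_) ?_) ?_
      · rw [map_mul]; exact mul_le_one' hr (ha W₀.a₄)
      · rw [map_mul, map_pow]; exact mul_le_one' (pow_le_one₀ zero_le hr) (ha W₀.a₂)
      · rw [map_pow]; exact pow_le_one₀ zero_le hr
      · rw [map_mul, map_pow, hvu, one_pow, one_mul]; exact hcv.le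
    · linear_combination -e6
  have hvc : v c = v W.Δ := by
    have := congrArg v hcΔ
    rw [map_div₀, map_pow, hvu, one_pow, div_one, Valuation.map_neg, map_mul,
      v.map_one_add_of_lt (by rw [map_mul]; exact lt_of_le_of_lt (mul_le_of_le_one_left' h432) hcv),
      mul_one] at this
    exact this.symm
  refine ⟨C, ⟨c, A.mem_of_valuation_le_one c hcv.le⟩, ?_, residue_eq_zero_of_valuation_lt A hcv,
    ?_, ?_, hvu, A.mem_of_valuation_le_one _ hr, A.mem_of_valuation_le_one _ hs,
    A.mem_of_valuation_le_one _ ht, ?_⟩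
  · rw [genCurve, map_nodeCurve]; exact hsm
  · rintro (rfl : c = 0); simp [hΔne, hu] at hcΔ
  · rw [hWdef, map_Δ] at hvc; exact hvc
  intro σ hσ hW
  have ea : σ W.a₁ = W.a₁ ∧ σ W.a₃ = W.a₃ :=
    ⟨congrArg WeierstrassCurve.a₁ hW, congrArg WeierstrassCurve.a₃ hW⟩
  have eb2 : σ W.b₂ = W.b₂ := by
    have := congrArg WeierstrassCurve.b₂ hW
    rwa [map_b₂] at this
  have ec4 : σ W.c₄ = W.c₄ := by
    have := congrArg WeierstrassCurve.c₄ hW
    rwa [map_c₄] at this
  have ec6 : σ W.c₆ = W.c₆ := by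
    have := congrArg WeierstrassCurve.c₆ hW
    rwa [map_c₆] at this
  have hu4' : σ u ^ 4 = W.c₄ := by rw [← map_pow, hu4, ec4]
  have hsq : σ u ^ 2 = u ^ 2 := by
    have h : (σ u ^ 2 - u ^ 2) * (σ u ^ 2 + u ^ 2) = 0 := by linear_combination hu4' - hu4
    rcases mul_eq_zero.mp h with h | h
    · exact sub_eq_zero.mp h
    exfalso
    have hc6σ : W.c₆ / σ u ^ 6 = -(1 + 864 * σ c) := by
      have := congrArg σ hc6
      simpa [ec6, map_ofNat σ] using this
    have hsum := key2 u (σ u) hu4 (eq_neg_of_add_eq_zero_left h) c (σ c) hc6 hc6σ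
    have hlt : v ((432 : K) * (c + σ c)) < 1 := by
      rw [map_mul]
      exact lt_of_le_of_lt (mul_le_of_le_one_left' h432)
        (v.map_add_lt hcv (hσ.valuation_map_lt_one hcv))
    rw [hsum, Valuation.map_neg, map_one] at hlt
    exact lt_irrefl _ hlt
  have hσu : σ u = u := by
    rcases eq_or_eq_neg_of_sq_eq_sq _ _ hsq with h | h
    · exact h
    exfalso
    have hlt := hσ.valuation_sub_lt hs
    rw [show C.s = (u - W.a₁) / 2 from rfl, map_div₀ σ, map_sub σ, ea.1, h, map_ofNat σ,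
      show (-u - W.a₁) / 2 - (u - W.a₁) / 2 = -u by ring, Valuation.map_neg, hvu] at hlt
    exact lt_irrefl _ hlt
  have hCσ : C.map σ = C := by
    ext <;>
      simp [hC, nodeChange, VariableChange.map, hσu, ea.1, ea.2, eb2, map_ofNat σ]
  refine ⟨hCσ, ?_⟩
  have := (congrArg (fun X : WeierstrassCurve K => σ X.a₆) hsm)
  simp only [nodeCurve] at this
  rw [show (⟨c, A.mem_of_valuation_le_one c hcv.le⟩ : A).1 = c from rfl, ← this]
  calc σ (C • W).a₆ = ((C.map σ) • (W.map σ)).a₆ := by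
        rw [WeierstrassCurve.map_variableChange]; rfl
    _ = c := by rw [hCσ, show W.map σ = W from hW, hsm]; rfl

end FLTAgent.EllLocal
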