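import Fermat.Agent.EllLocal.NodeInertia
import Fermat.Prelude.Def_FLTPrelim_Ramification

/-!
# Unramifiedness of torsion for semistable models

`eq_of_conj_semistable`: inertia fixes the `p`-torsion, `p` odd and invertible in the residue
field, of a model with good reduction, or with multiplicative reduction and `v Δ` the `p`-th
power of the value of a fixed element. `inertiaLike_of_mem` supplies the inertia subgroup.
-/

set_option autoImplicit false

namespace FLTAgent.EllLocal

open WeierstrassCurve WeierstrassCurve.Affine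

variable {K : Type*} [Field K]

theorem inertiaLike_of_mem {F : Type*} [Field F] [Algebra F K] {A : ValuationSubring K}
    {σ : K ≃ₐ[F] K} (h : σ ∈ A.inertiaSubgroupIn F) : InertiaLike A (σ : K →+* K) := by
  obtain ⟨τ, hτ, rfl⟩ := h
  intro z
  exact ⟨τ • z, rfl, DFunLike.congr_fun hτ (IsLocalRing.residue A z)⟩

variable [DecidableEq K] {A : ValuationSubring K}

theorem nsmul_vc {W W' : Affine K} {C : VariableChange K} (hC : C • W = W') {σ : K →+* K}
    (hσC : C.map σ = C) {P Q : W.Point} (h : IsConjPoint σ P Q) {n : ℕ} (hP : n • P = 0)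
    (hQ : n • Q = 0) (main : ∀ P' Q' : W'.Point, IsConjPoint σ P' Q' → n • P' = 0 → n • Q' = 0 →
      Q' = P') : Q = P := by
  subst hC
  exact vcPoint_injective C (main _ _ (h.vc hσC) (by rw [← map_nsmul, hP, map_zero])
    (by rw [← map_nsmul, hQ, map_zero]))

/-- Inertia at `q` acts trivially on the `p`-torsion of a model with good reduction, or with
multiplicative reduction and discriminant of valuation a `p`-th power of a fixed element. -/
theorem eq_of_conj_semistable [CharZero K] [IsAlgClosed K] {W₀ : WeierstrassCurve A}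
    {W : Affine K} (hW : W = genCurve A W₀) {σ : K →+* K} (hσ : InertiaLike A σ)
    (hσW : W.map σ = W) {p : ℕ} (hp : Odd p)
    (hpA : (p : IsLocalRing.ResidueField A) ≠ 0)
    (hred : IsLocalRing.residue A W₀.Δ ≠ 0 ∨
      (IsLocalRing.residue A W₀.c₄ ≠ 0 ∧ W₀.Δ ≠ 0 ∧
        ∃ d : K, σ d = d ∧ A.valuation d ^ p = A.valuation (W₀.Δ : K)))
    {P Q : W.Point} (h : IsConjPoint σ P Q) (hP : p • P = 0) (hQ : p • Q = 0) : Q = P := by
  subst hW
  by_cases hΔ : IsLocalRing.residue A W₀.Δ = 0
  · obtain ⟨hc₄, hΔ0, d, hσd, hd⟩ := hred.resolve_left (not_not.mpr hΔ)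
    obtain ⟨C, c, hC, hπc, hc0, hvc, -, -, -, -, hfix⟩ := exists_node_form W₀ hc₄ hΔ hΔ0
    obtain ⟨hσC, -⟩ := hfix σ hσ hσW
    exact nsmul_vc hC hσC h hP hQ fun P' Q' h' hP' hQ' =>
      eq_of_conj_node hπc hc0 hσ h' hp hpA ⟨d, hσd, hvc ▸ hd⟩ hP' hQ'
  · exact eq_of_conj_mem_E0 hσ h (mem_E0_of_good hΔ P) hpA hP hQ

end FLTAgent.EllLocal
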