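import Mathlib.AlgebraicGeometry.EllipticCurve.Affine.Point
import Mathlib.Tactic

/-!
# Points under an admissible change of variables

`vcPoint`: an admissible change of variables of a Weierstrass curve induces an injective
homomorphism of the groups of points (compatibility of negation, slopes and the addition
formulas); `map_vcX`, `map_vcY` give its compatibility with field endomorphisms fixing it.
-/

set_option autoImplicit false

namespace FLTAgent.EllLocal

open WeierstrassCurve WeierstrassCurve.Affine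

variable {F : Type*} [Field F]

/-- New `X`-coordinate after the change of variables `C`. -/
def vcX (C : VariableChange F) (x : F) : F := ((C.u⁻¹ : Fˣ) : F) ^ 2 * (x - C.r)

/-- New `Y`-coordinate after the change of variables `C`. -/
def vcY (C : VariableChange F) (x y : F) : F :=
  ((C.u⁻¹ : Fˣ) : F) ^ 3 * (y - C.s * (x - C.r) - C.t)

variable {W : Affine F} (C : VariableChange F)

theorem vcX_injective : Function.Injective (vcX C) := by
  intro a b h
  simpa [vcX] using h

theorem vcY_injective (x : F) : Function.Injective (vcY C x) := by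
  intro a b h
  simpa [vcY] using h

theorem equation_vc {x y : F} (h : W.Equation x y) :
    (C • W).toAffine.Equation (vcX C x) (vcY C x y) := by
  rw [equation_iff] at h ⊢
  simp only [variableChange_def, vcX, vcY]
  linear_combination ((C.u⁻¹ : Fˣ) : F) ^ 6 * h

theorem polynomialY_vc (x y : F) :
    (C • W).toAffine.polynomialY.evalEval (vcX C x) (vcY C x y) =
      ((C.u⁻¹ : Fˣ) : F) ^ 3 * W.polynomialY.evalEval x y := by
  simp only [evalEval_polynomialY, variableChange_def, vcX, vcY]
  ring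

theorem polynomialX_vc (x y : F) :
    (C • W).toAffine.polynomialX.evalEval (vcX C x) (vcY C x y) =
      ((C.u⁻¹ : Fˣ) : F) ^ 4 *
        (W.polynomialX.evalEval x y + C.s * W.polynomialY.evalEval x y) := by
  simp only [evalEval_polynomialX, evalEval_polynomialY, variableChange_def, vcX, vcY]
  ring

theorem nonsingular_vc {x y : F} (h : W.Nonsingular x y) :
    (C • W).toAffine.Nonsingular (vcX C x) (vcY C x y) := by
  refine ⟨equation_vc C h.1, ?_⟩
  by_contra hc
  simp only [not_or, ne_eq, not_not, polynomialX_vc, polynomialY_vc, mul_eq_zero,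
    pow_eq_zero_iff, OfNat.ofNat_ne_zero, not_false_eq_true, Units.ne_zero, false_or] at hc
  obtain ⟨hX, hY⟩ := hc
  rw [hY, mul_zero, add_zero] at hX
  exact h.2.elim (· hX) (· hY)

theorem negY_vc (x y : F) :
    (C • W).toAffine.negY (vcX C x) (vcY C x y) = vcY C x (W.negY x y) := by
  simp only [negY, variableChange_def, vcX, vcY]
  ring

theorem vc_eq_neg_iff {x₁ x₂ y₁ y₂ : F} :
    (vcX C x₁ = vcX C x₂ ∧ vcY C x₁ y₁ = (C • W).toAffine.negY (vcX C x₂) (vcY C x₂ y₂)) ↔
      (x₁ = x₂ ∧ y₁ = W.negY x₂ y₂) := by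
  rw [negY_vc]
  constructor
  · rintro ⟨hx, hy⟩
    obtain rfl := vcX_injective C hx
    exact ⟨rfl, vcY_injective C x₁ hy⟩
  · rintro ⟨rfl, rfl⟩
    exact ⟨rfl, rfl⟩

theorem slope_vc [DecidableEq F] {x₁ x₂ y₁ y₂ : F} (h₁ : W.Equation x₁ y₁) (h₂ : W.Equation x₂ y₂)
    (hxy : ¬(x₁ = x₂ ∧ y₁ = W.negY x₂ y₂)) :
    (C • W).toAffine.slope (vcX C x₁) (vcX C x₂) (vcY C x₁ y₁) (vcY C x₂ y₂) =
      ((C.u⁻¹ : Fˣ) : F) * (W.slope x₁ x₂ y₁ y₂ - C.s) := by
  by_cases hx : x₁ = x₂
  · have hy : y₁ ≠ W.negY x₂ y₂ := fun h => hxy ⟨hx, h⟩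
    obtain rfl := hx
    obtain rfl := Y_eq_of_Y_ne h₁ h₂ rfl hy
    have hy' : vcY C x₁ y₁ ≠ (C • W).toAffine.negY (vcX C x₁) (vcY C x₁ y₁) := by
      rw [negY_vc]; exact fun h => hy (vcY_injective C x₁ h)
    rw [slope_of_Y_ne_eq_evalEval rfl hy', slope_of_Y_ne_eq_evalEval rfl hy, polynomialX_vc,
      polynomialY_vc]
    have hP : W.polynomialY.evalEval x₁ y₁ ≠ 0 := by
      rw [evalEval_polynomialY]
      intro h0
      apply hy
      simp only [negY]
      linear_combination h0
    have hu : ((C.u⁻¹ : Fˣ) : F) ≠ 0 := Units.ne_zero _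
    field_simp
    ring
  · have hx' : vcX C x₁ ≠ vcX C x₂ := fun h => hx (vcX_injective C h)
    rw [slope_of_X_ne hx', slope_of_X_ne hx]
    have hu : ((C.u⁻¹ : Fˣ) : F) ≠ 0 := Units.ne_zero _
    have hd : x₁ - x₂ ≠ 0 := sub_ne_zero.mpr hx
    simp only [vcX, vcY]
    field_simp
    have hd' : x₁ - C.r - (x₂ - C.r) ≠ 0 := by rwa [sub_sub_sub_cancel_right]
    field_simp
    ring

theorem addX_vc (x₁ x₂ l : F) :
    (C • W).toAffine.addX (vcX C x₁) (vcX C x₂) (((C.u⁻¹ : Fˣ) : F) * (l - C.s)) =
      vcX C (W.addX x₁ x₂ l) := by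
  simp only [addX, variableChange_def, vcX]
  ring

theorem addY_vc (x₁ x₂ y₁ l : F) :
    (C • W).toAffine.addY (vcX C x₁) (vcX C x₂) (vcY C x₁ y₁)
        (((C.u⁻¹ : Fˣ) : F) * (l - C.s)) =
      vcY C (W.addX x₁ x₂ l) (W.addY x₁ x₂ y₁ l) := by
  simp only [addY, negAddY, negY, addX, variableChange_def, vcX, vcY]
  ring

variable (W) in
/-- The map on points induced by a change of variables. -/
def vcPointFun : W.Point → (C • W).toAffine.Point
  | 0 => 0
  | .some x y h => .some (vcX C x) (vcY C x y) (nonsingular_vc C h)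

variable [DecidableEq F]

variable (W) in
/-- The group homomorphism on points induced by a change of variables. -/
def vcPoint : W.Point →+ (C • W).toAffine.Point where
  toFun := vcPointFun W C
  map_zero' := rfl
  map_add' := by
    rintro (_ | ⟨x₁, y₁, h₁⟩) (_ | ⟨x₂, y₂, h₂⟩)
    · rfl
    · rfl
    · rfl
    · by_cases hxy : x₁ = x₂ ∧ y₁ = W.negY x₂ y₂
      · have h' := (vc_eq_neg_iff C).mpr hxy
        simp only [vcPointFun]
        rw [Point.add_of_Y_eq hxy.1 hxy.2, Point.add_of_Y_eq h'.1 h'.2]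
      · have h' : ¬ _ := fun h => hxy ((vc_eq_neg_iff C).mp h)
        simp only [vcPointFun]
        rw [Point.add_some hxy, Point.add_some h']
        simp only [slope_vc C h₁.1 h₂.1 hxy, addX_vc, addY_vc]

@[simp]
theorem vcPoint_some {x y : F} (h : W.Nonsingular x y) :
    vcPoint W C (.some x y h) = .some (vcX C x) (vcY C x y) (nonsingular_vc C h) :=
  rfl

theorem vcPoint_eq_zero {P : W.Point} : vcPoint W C P = 0 ↔ P = 0 := by
  cases P with
  | zero => exact iff_of_true rfl rfl
  | some x y h => simp [vcPoint_some]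

theorem vcPoint_injective : Function.Injective (vcPoint W C) :=
  (injective_iff_map_eq_zero _).mpr fun _ => (vcPoint_eq_zero C).mp

omit [DecidableEq F] in
theorem map_vcX {σ : F →+* F} (hC : C.map σ = C) (x : F) : σ (vcX C x) = vcX C (σ x) := by
  conv_rhs => rw [← hC]
  simp [vcX, VariableChange.map]

omit [DecidableEq F] in
theorem map_vcY {σ : F →+* F} (hC : C.map σ = C) (x y : F) :
    σ (vcY C x y) = vcY C (σ x) (σ y) := by
  conv_rhs => rw [← hC]
  simp [vcY, VariableChange.map]

end FLTAgent.EllLocal
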